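import Mathlib

/-!
# MAZ / Val / [V4]  at most `ℓ` rational numbers are pairwise incongruent modulo a place over `ℓ`

`q = a/b` in lowest terms, `v q ≤ 1` ⟹ `ℓ ∤ b` (`v n = 1` for `ℓ ∤ n` by Bezout, `v ℓ < 1`); `φ(q) := a b⁻¹ ∈ ZMod ℓ`;
`φ q = φ q'` ⟹ `ℓ ∣ a b' - a' b` ⟹ `v (q - q') < 1`.  So `φ` is injective on `S`.
-/

set_option autoImplicit false

namespace Fermat.Agent.MAZ.Val

section aux

variable {K : Type*} [Field K] {Γ₀ : Type*} [LinearOrderedCommGroupWithZero Γ₀]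
  (v : Valuation K Γ₀)

theorem val_natCast_le_one (n : ℕ) : v (n : K) ≤ 1 := by
  induction n with
  | zero => simp
  | succ n ih =>
    rw [Nat.cast_succ]
    exact (v.map_add _ _).trans (max_le ih (by simp))

theorem val_intCast_le_one (n : ℤ) : v (n : K) ≤ 1 := by
  obtain ⟨m, rfl | rfl⟩ := n.eq_nat_or_neg
  · simpa using val_natCast_le_one v m
  · simpa using val_natCast_le_one v m

theorem val_intCast_lt_one_of_dvd {ℓ : ℕ} (hv : v (ℓ : K) < 1) {n : ℤ} (h : (ℓ : ℤ) ∣ n) :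
    v (n : K) < 1 := by
  obtain ⟨c, rfl⟩ := h
  push_cast
  rw [map_mul]
  calc v (ℓ : K) * v (c : K) ≤ v (ℓ : K) * 1 := by
        gcongr
        exact val_intCast_le_one v c
    _ < 1 := by rwa [mul_one]

theorem val_intCast_eq_one_of_not_dvd {ℓ : ℕ} (hℓ : ℓ.Prime) (hv : v (ℓ : K) < 1) {n : ℤ}
    (h : ¬ (ℓ : ℤ) ∣ n) : v (n : K) = 1 := by
  have hcop : IsCoprime n (ℓ : ℤ) :=
    ((Nat.prime_iff_prime_int.mp hℓ).coprime_iff_not_dvd.mpr h).symm
  obtain ⟨a, b, hab⟩ := hcop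
  have h1 : ((a * n : ℤ) : K) + ((b * ℓ : ℤ) : K) = 1 := by
    rw [← Int.cast_add, hab, Int.cast_one]
  have h2 : v ((b * ℓ : ℤ) : K) < 1 := val_intCast_lt_one_of_dvd v hv (Dvd.intro_left b rfl)
  refine le_antisymm (val_intCast_le_one v n) ?_
  by_contra hlt
  rw [not_le] at hlt
  have h3 : v ((a * n : ℤ) : K) < 1 := by
    push_cast
    rw [map_mul]
    calc v (a : K) * v (n : K) ≤ 1 * v (n : K) := by
          gcongr
          exact val_intCast_le_one v a
      _ < 1 := by rwa [one_mul]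
  have h4 := v.map_add_lt h3 h2
  rw [h1, map_one] at h4
  exact lt_irrefl _ h4

end aux

theorem card_le_of_pairwise_unit {K : Type*} [Field K] [CharZero K] {Γ₀ : Type*}
    [LinearOrderedCommGroupWithZero Γ₀] (v : Valuation K Γ₀) {ℓ : ℕ} (hℓ : ℓ.Prime)
    (hv : v (ℓ : K) < 1) (S : Finset ℚ) (h1 : ∀ q ∈ S, v (q : K) ≤ 1)
    (h2 : ∀ q ∈ S, ∀ q' ∈ S, q ≠ q' → v ((q : K) - (q' : K)) = 1) : S.card ≤ ℓ := by
  haveI : Fact ℓ.Prime := ⟨hℓ⟩
  -- denominators are units
  have hden : ∀ q ∈ S, ¬ (ℓ : ℤ) ∣ (q.den : ℤ) := by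
    intro q hq hd
    have hnum : ¬ (ℓ : ℤ) ∣ q.num := by
      intro hn
      have hn' : ℓ ∣ q.num.natAbs := Int.natCast_dvd.mp hn
      have hd' : ℓ ∣ q.den := Int.natCast_dvd_natCast.mp hd
      have := Nat.dvd_gcd hn' hd'
      rw [q.reduced] at this
      exact hℓ.one_lt.ne' (Nat.dvd_one.mp this)
    have e1 := val_intCast_eq_one_of_not_dvd v hℓ hv hnum
    have e2 := val_intCast_lt_one_of_dvd v hv hd
    have e3 : (q : K) * ((q.den : ℤ) : K) = ((q.num : ℤ) : K) := by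
      have := Rat.mul_den_eq_num q
      have h' := congrArg (fun x : ℚ => (x : K)) this
      push_cast at h' ⊢
      exact h'
    have e4 := congrArg v e3
    rw [map_mul, e1] at e4
    have : v (q : K) * v (((q.den : ℤ) : K)) < 1 := by
      calc v (q : K) * v (((q.den : ℤ) : K)) ≤ 1 * v (((q.den : ℤ) : K)) := by
            gcongr
            exact h1 q hq
        _ < 1 := by rwa [one_mul]
    rw [e4] at this
    exact lt_irrefl _ this
  let φ : ℚ → ZMod ℓ := fun q => (q.num : ZMod ℓ) * ((q.den : ℤ) : ZMod ℓ)⁻¹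
  have hinj : Set.InjOn φ S := by
    intro q hq q' hq' hφ
    by_contra hne
    have hd : ((q.den : ℤ) : ZMod ℓ) ≠ 0 := by
      rw [Ne, ZMod.intCast_zmod_eq_zero_iff_dvd]
      exact hden q hq
    have hd' : ((q'.den : ℤ) : ZMod ℓ) ≠ 0 := by
      rw [Ne, ZMod.intCast_zmod_eq_zero_iff_dvd]
      exact hden q' hq'
    have h3 : ((q.num * q'.den - q'.num * q.den : ℤ) : ZMod ℓ) = 0 := by
      simp only [φ] at hφ
      push_cast at hd hd' hφ ⊢
      field_simp at hφ
      linear_combination hφ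
    rw [ZMod.intCast_zmod_eq_zero_iff_dvd] at h3
    have h4 := val_intCast_lt_one_of_dvd v hv h3
    have e : ((q : K) - (q' : K)) * (((q.den : ℤ) : K) * ((q'.den : ℤ) : K))
        = ((q.num * q'.den - q'.num * q.den : ℤ) : K) := by
      have a1 : (q : K) * ((q.den : ℤ) : K) = ((q.num : ℤ) : K) := by
        have h' := congrArg (fun x : ℚ => (x : K)) (Rat.mul_den_eq_num q)
        push_cast at h' ⊢
        exact h'
      have a2 : (q' : K) * ((q'.den : ℤ) : K) = ((q'.num : ℤ) : K) := by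
        have h' := congrArg (fun x : ℚ => (x : K)) (Rat.mul_den_eq_num q')
        push_cast at h' ⊢
        exact h'
      push_cast at a1 a2 ⊢
      linear_combination (q'.den : K) * a1 - (q.den : K) * a2
    have e' := congrArg v e
    rw [map_mul, map_mul, h2 q hq q' hq' hne,
      val_intCast_eq_one_of_not_dvd v hℓ hv (hden q hq),
      val_intCast_eq_one_of_not_dvd v hℓ hv (hden q' hq')] at e'
    rw [← e'] at h4
    simp at h4
  calc S.card ≤ (Finset.univ : Finset (ZMod ℓ)).card :=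
        Finset.card_le_card_of_injOn φ (fun _ _ => Finset.mem_univ _) hinj
    _ = ℓ := by rw [Finset.card_univ, ZMod.card]

end Fermat.Agent.MAZ.Val
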