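import Fermat.Agent.S05.Shift
import Fermat.Agent.S05.Congr

/-!
# MAZ / Val / [V1]  existence of `S05.ShiftData` at a prime of multiplicative reduction (ALL residue characteristics)

`K` algebraically closed of characteristic `0`, `v` a valuation, `W` integral, `v Δ < 1`, `v c₄ = 1`.

For a root `e` of `Ψ = 4x³ + b₂x² + 2b₄x + b₆` put `c(e) := (b₄ + b₂ e + 6e²)/2`, `b'(e) := b₂ + 12 e`.  RING IDENTITIES (given `Ψ(e) = 0`, and
`4 b₈ = b₂b₆ - b₄²`, `W.b_relation`):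
 (I1) `Δ = c² (b'² - 64 c)`,  (I2) `c₄ = b'² - 48 c`   (so `Δ = c² (c₄ - 16 c)`),
 (I3) `c₄ e = 18 b₆ - b₂ b₄ + 2 c b'`   (so `(c₄ - 24 c) e = 18 b₆ - b₂b₄ + 2 c b₂`).
  [(I3): `b₂ (6e²+b₂e+b₄) - 6 (b₂e²+4b₄e+3b₆) = c₄ e + b₂b₄ - 18b₆`, `6e²+b₂e+b₄ = 2c`, `b₂e²+4b₄e+3b₆ = 3Ψ(e) - 2e·2c = -4ce`.]
STEP 1: `Ψ = 4 (x-e₁)(x-e₂)(x-e₃)` (`IsAlgClosed.splits`, degree 3 as `4 ≠ 0`); `b₂ = -4 s₁`, `b₄ = 2 s₂`, `b₆ = -4 s₃`;
 `c_i := c(e_i) = (e_i - e_j)(e_i - e_k)`, `16 c₁c₂c₃ = -Δ` (`ring`).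
STEP 2: some `v c_i < 1`.  Otherwise `v(c_i)² v(c₄ - 16c_i) = v Δ < 1` forces `v(c₄ - 16 c_i) < 1`, hence `v(16 c_i) = v c₄ = 1` for all `i`, so
 `1 = v(16³ c₁c₂c₃) = v(16)² v(Δ) < 1`.
STEP 3: for this `e`: `v(c₄ - 24c) = 1`, so (I3) gives `v e ≤ 1`; (I2) gives `v b' = 1`; (I1) gives `v Δ = v(c)²` (`v(b'² - 64c) = 1`) and `c ≠ 0`.
-/

set_option autoImplicit false

open Fermat.Agent.S05

namespace Fermat.Agent.MAZ.Val

theorem ShiftData.disc_eq {F : Type*} [Field F] {W : WeierstrassCurve.Affine F} {x0 c b' : F}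
    (H : ShiftData W x0 c b') : W.Δ = c ^ 2 * (b' ^ 2 - 64 * c) := by
  have hc := H.hc
  have h0 := H.h0
  have h8 := H.b₈_eq
  rw [H.hb]
  simp only [WeierstrassCurve.Δ]
  rw [h8]
  have hb4 : W.b₄ = 2 * c - W.b₂ * x0 - 6 * x0 ^ 2 := by linear_combination -hc
  have hb6 : W.b₆ = -(4 * x0 ^ 3 + W.b₂ * x0 ^ 2 + 2 * W.b₄ * x0) := by linear_combination h0
  rw [hb6, hb4]
  ring

theorem ShiftData.c₄_eq {F : Type*} [Field F] {W : WeierstrassCurve.Affine F} {x0 c b' : F}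
    (H : ShiftData W x0 c b') : W.c₄ = b' ^ 2 - 48 * c := by
  have hc := H.hc
  rw [H.hb]
  simp only [WeierstrassCurve.c₄]
  linear_combination (24 : F) * hc

theorem ShiftData.c₄_mul {F : Type*} [Field F] {W : WeierstrassCurve.Affine F} {x0 c b' : F}
    (H : ShiftData W x0 c b') : W.c₄ * x0 = 18 * W.b₆ - W.b₂ * W.b₄ + 2 * c * b' := by
  have hc := H.hc
  have h0 := H.h0
  rw [H.hb]
  simp only [WeierstrassCurve.c₄]
  linear_combination (-(W.b₂ + 12 * x0)) * hc - 18 * h0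

/-- the three roots of `Ψ`. -/
theorem exists_roots_psi {K : Type*} [Field K] [IsAlgClosed K] [CharZero K] (b₂ b₄ b₆ : K) :
    ∃ e₁ e₂ e₃ : K, b₂ = -4 * (e₁ + e₂ + e₃) ∧ b₄ = 2 * (e₁ * e₂ + e₁ * e₃ + e₂ * e₃) ∧
      b₆ = -4 * (e₁ * e₂ * e₃) := by
  have h4 : (4 : K) ≠ 0 := by norm_num
  have h2 : (2 : K) ≠ 0 := by norm_num
  obtain ⟨e₁, he₁⟩ := IsAlgClosed.exists_root
    (Polynomial.C 4 * Polynomial.X ^ 3 + Polynomial.C b₂ * Polynomial.X ^ 2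
      + Polynomial.C (2 * b₄) * Polynomial.X + Polynomial.C b₆ : Polynomial K)
    (by rw [Polynomial.degree_cubic h4]; decide)
  obtain ⟨e₂, he₂⟩ := IsAlgClosed.exists_root
    (Polynomial.C 4 * Polynomial.X ^ 2 + Polynomial.C (b₂ + 4 * e₁) * Polynomial.X
      + Polynomial.C (2 * b₄ + b₂ * e₁ + 4 * e₁ ^ 2) : Polynomial K)
    (by rw [Polynomial.degree_quadratic h4]; decide)
  simp only [Polynomial.IsRoot.def, Polynomial.eval_add, Polynomial.eval_mul, Polynomial.eval_C,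
    Polynomial.eval_pow, Polynomial.eval_X] at he₁ he₂
  obtain ⟨e₃, h3⟩ : ∃ e₃ : K, 4 * e₃ = -(b₂ + 4 * e₁) - 4 * e₂ :=
    ⟨(-(b₂ + 4 * e₁) - 4 * e₂) / 4, by field_simp⟩
  refine ⟨e₁, e₂, e₃, by linear_combination h3, ?_, ?_⟩
  · apply mul_left_cancel₀ h2
    linear_combination he₂ - (e₁ + e₂) * h3
  · linear_combination he₁ - e₁ * he₂ + e₁ * e₂ * h3

theorem exists_shiftData {K : Type*} [Field K] [IsAlgClosed K] [CharZero K] {Γ₀ : Type*}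
    [LinearOrderedCommGroupWithZero Γ₀] (v : Valuation K Γ₀) (W : WeierstrassCurve.Affine K)
    (h₁ : v W.a₁ ≤ 1) (h₂ : v W.a₂ ≤ 1) (h₃ : v W.a₃ ≤ 1) (h₄ : v W.a₄ ≤ 1) (h₆ : v W.a₆ ≤ 1)
    (hΔ0 : W.Δ ≠ 0) (hΔ : v W.Δ < 1) (hc₄ : v W.c₄ = 1) :
    ∃ x0 c b' : K, ShiftData W x0 c b' ∧ v x0 ≤ 1 ∧ v b' = 1 ∧ v c < 1 ∧ c ≠ 0 ∧
      v W.Δ = v c ^ 2 := by
  have h2 : (2 : K) ≠ 0 := by norm_num
  have nn : ∀ n : ℕ, v (n : K) ≤ 1 := val_natCast_le_one v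
  have n2 : v (2 : K) ≤ 1 := by simpa using nn 2
  have n4 : v (4 : K) ≤ 1 := by simpa using nn 4
  have n16 : v (16 : K) ≤ 1 := by simpa using nn 16
  have n18 : v (18 : K) ≤ 1 := by simpa using nn 18
  have n24 : v (24 : K) ≤ 1 := by simpa using nn 24
  have n48 : v (48 : K) ≤ 1 := by simpa using nn 48
  have n64 : v (64 : K) ≤ 1 := by simpa using nn 64
  have mb₂ : v W.b₂ ≤ 1 := by
    simp only [WeierstrassCurve.b₂]
    refine val_add_le_one v ?_ (val_mul_le_one v n4 h₂)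
    rw [pow_two]; exact val_mul_le_one v h₁ h₁
  have mb₄ : v W.b₄ ≤ 1 := by
    simp only [WeierstrassCurve.b₄]
    exact val_add_le_one v (val_mul_le_one v n2 h₄) (val_mul_le_one v h₁ h₃)
  have mb₆ : v W.b₆ ≤ 1 := by
    simp only [WeierstrassCurve.b₆]
    refine val_add_le_one v ?_ (val_mul_le_one v n4 h₆)
    rw [pow_two]; exact val_mul_le_one v h₃ h₃
  -- STEP 3
  have step3 : ∀ e c : K, ShiftData W e c (W.b₂ + 12 * e) → v c < 1 →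
      ∃ x0 c b' : K, ShiftData W x0 c b' ∧ v x0 ≤ 1 ∧ v b' = 1 ∧ v c < 1 ∧ c ≠ 0 ∧
        v W.Δ = v c ^ 2 := by
    intro e c H hc
    have I1 := ShiftData.disc_eq H
    have I2 := ShiftData.c₄_eq H
    have I3 := ShiftData.c₄_mul H
    have hb'2 : v ((W.b₂ + 12 * e) ^ 2) = 1 := by
      have : (W.b₂ + 12 * e) ^ 2 = W.c₄ + 48 * c := by linear_combination -I2
      rw [this, Valuation.map_add_eq_of_lt_left, hc₄]
      rw [hc₄]
      exact val_mul_lt_one_right v n48 hc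
    have hb' : v (W.b₂ + 12 * e) = 1 := by
      rw [map_pow] at hb'2
      exact (pow_eq_one_iff_of_nonneg zero_le two_ne_zero).mp hb'2
    have h64 : v ((W.b₂ + 12 * e) ^ 2 - 64 * c) = 1 := by
      rw [Valuation.map_sub_eq_of_lt_left, hb'2]
      rw [hb'2]
      exact val_mul_lt_one_right v n64 hc
    have hΔc : v W.Δ = v c ^ 2 := by
      rw [I1, map_mul, h64, mul_one, map_pow]
    have hc0 : c ≠ 0 := by
      rintro rfl
      apply hΔ0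
      rw [I1]
      ring
    have h24 : v (W.c₄ - 24 * c) = 1 := by
      rw [Valuation.map_sub_eq_of_lt_left, hc₄]
      rw [hc₄]
      exact val_mul_lt_one_right v n24 hc
    have he : v e ≤ 1 := by
      have e1 : (W.c₄ - 24 * c) * e = 18 * W.b₆ - W.b₂ * W.b₄ + 2 * c * W.b₂ := by
        linear_combination I3
      have e2 : v ((W.c₄ - 24 * c) * e) ≤ 1 := by
        rw [e1]
        exact val_add_le_one v (val_sub_le_one v (val_mul_le_one v n18 mb₆)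
          (val_mul_le_one v mb₂ mb₄)) (val_mul_le_one v (val_mul_le_one v n2 hc.le) mb₂)
      rwa [map_mul, h24, one_mul] at e2
    exact ⟨e, c, _, H, he, hb', hc, hc0, hΔc⟩
  obtain ⟨e₁, e₂, e₃, hb2, hb4, hb6⟩ := exists_roots_psi W.b₂ W.b₄ W.b₆
  have H1 : ShiftData W e₁ ((e₁ - e₂) * (e₁ - e₃)) (W.b₂ + 12 * e₁) :=
    ⟨by rw [hb2, hb4, hb6]; ring, by rw [hb2, hb4]; ring, rfl, h2⟩
  have H2 : ShiftData W e₂ ((e₂ - e₁) * (e₂ - e₃)) (W.b₂ + 12 * e₂) :=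
    ⟨by rw [hb2, hb4, hb6]; ring, by rw [hb2, hb4]; ring, rfl, h2⟩
  have H3 : ShiftData W e₃ ((e₃ - e₁) * (e₃ - e₂)) (W.b₂ + 12 * e₃) :=
    ⟨by rw [hb2, hb4, hb6]; ring, by rw [hb2, hb4]; ring, rfl, h2⟩
  -- STEP 2
  have step2 : ∀ e c : K, ShiftData W e c (W.b₂ + 12 * e) → ¬ v c < 1 → v (16 * c) = 1 := by
    intro e c H hc
    push Not at hc
    have I1 := ShiftData.disc_eq H
    have I2 := ShiftData.c₄_eq H
    have e1 : W.Δ = c ^ 2 * (W.c₄ - 16 * c) := by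
      rw [I1, I2]; ring
    have e2 : v (W.c₄ - 16 * c) < 1 := by
      have h3 : v c ^ 2 * v (W.c₄ - 16 * c) < 1 := by
        rw [← map_pow, ← map_mul, ← e1]; exact hΔ
      refine lt_of_le_of_lt ?_ h3
      exact le_mul_of_one_le_left' (one_le_pow_of_one_le' hc 2)
    have e3 : 16 * c = W.c₄ - (W.c₄ - 16 * c) := by ring
    rw [e3, Valuation.map_sub_eq_of_lt_left, hc₄]
    rw [hc₄]
    exact e2
  by_cases k1 : v ((e₁ - e₂) * (e₁ - e₃)) < 1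
  · exact step3 _ _ H1 k1
  by_cases k2 : v ((e₂ - e₁) * (e₂ - e₃)) < 1
  · exact step3 _ _ H2 k2
  by_cases k3 : v ((e₃ - e₁) * (e₃ - e₂)) < 1
  · exact step3 _ _ H3 k3
  exfalso
  have j1 := step2 _ _ H1 k1
  have j2 := step2 _ _ H2 k2
  have j3 := step2 _ _ H3 k3
  have hprod : (16 * ((e₁ - e₂) * (e₁ - e₃))) * (16 * ((e₂ - e₁) * (e₂ - e₃))) *
      (16 * ((e₃ - e₁) * (e₃ - e₂))) = -(16 ^ 2 * W.Δ) := by
    have I1 := ShiftData.disc_eq H1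
    rw [I1, hb2]
    ring
  have h5 : v (-(16 ^ 2 * W.Δ)) = 1 := by
    rw [← hprod, map_mul, map_mul, j1, j2, j3, one_mul, one_mul]
  rw [Valuation.map_neg] at h5
  have h6 : v (16 ^ 2 * W.Δ) < 1 := by
    refine val_mul_lt_one_right v ?_ hΔ
    rw [pow_two]; exact val_mul_le_one v n16 n16
  rw [h5] at h6
  exact lt_irrefl _ h6

end Fermat.Agent.MAZ.Val
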