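import Fermat.Agent.MAZ.Ell.Curve
import Fermat.Agent.MAZ.Val.Shift
import Fermat.Agent.S13.MultVal2

/-!
# MAZ / Val / [V3]  the dichotomy at a multiplicative prime and the valuation of `Λ(E,Q)`

`W` over `K`, `H : ShiftData W x0 c b'`, `v x0 ≤ 1`, `v b' = 1`, `v c < 1`, `c ≠ 0`; `Q` of exact order `N` (odd prime);
all `x(kQ)` integral (`hint`; from `S05.torsion_x_integral`).  `X k := x(kQ) - x0`.
FORMULAS: `S05.ShiftData.prod` : `X_{i+j} X_{i-j} (X_i - X_j)² = (X_i X_j - c)²` (`i ≢ ± j`),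
`S05.ShiftData.dbl` : `X_{2k} Ψ(x_k) = (X_k² - c)²`, `S05.ShiftData.psi` : `Ψ(x) = X (4X² + b'X + 4c)`  (`Ell.psiX W x = Ψ(x)`).

* `unit_all` : `v X_1 = 1`.  `dbl` : `X_2 Ψ(x_1) = unit`, both integral, so both are units.  Induction with `prod` for `(mQ, Q)`:
  `X_{m+1} X_{m-1} (..)² = (X_m X_1 - c)² = unit` and all factors are integral: `X_{m+1}` is a unit (`2 ≤ m ≤ N-2`).
  Then `dbl` at `kQ` gives `v Ψ(x_k) = 1`.   (`x(kQ)` only depends on `k mod N`; `X_k` integral.)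
* `unit_sub` : same formula: `(X_i - X_j)²` divides a unit.
* `nonunit_all` : if `v X_k = 1` for some `k`, apply `unit_all` to `Q' = kQ` (order `N`) and `Q = k' Q'`.
* `lam_nsmul` : `k ↦ a k mod N` permutes `{1..N-1}`.
* `val_lam_unit` : all `v Ψ(x_k) = 1`, `v N = 1`.  (NEEDS `c ≠ 0`, i.e. `Δ ≠ 0`: hypothesis `hc0` added; for `c = 0` the statement is false, `lam = _/0 = 0`.)
* `val_lam_nonunit` : replace `Q` by the multiple with `v X` maximal (`lam_nsmul`).  As in `S13.mult_val_gen` (copy its proof, keep BOTH conclusions of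
  `S05.comb_gen`): with `t := v X_1`: `t^N = v(c)²` and `v X_m = t^m` for `2m < N`; also `v X_k > v c` (step (0) of `comb_gen`: `ρ_j < ord c`; or from
  `2m < N`, `t^N = v(c)^2`), so `v(4X² + b'X + 4c) = v X` and `v Ψ(x_m) = t^{2m}`; `x_{N-m} = x_m`;
  `∏_{k=1}^{N-1} v Ψ(x_k) = t^{4 ∑_{m ≤ (N-1)/2} m} = t^{(N²-1)/2}`, `v Λ = t^{N²-1} / t^{N(N-1)} = t^{N-1}` (`v Δ = v(c)² = t^N`).
-/

set_option autoImplicit false

open Fermat.Agent.S05 Fermat.Agent.MAZ.Ell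

namespace Fermat.Agent.MAZ.Val

namespace DichAux

section aux

variable {G : Type*} [AddCommGroup G] [LinearOrder G] [IsOrderedAddMonoid G]

lemma mv3_aux1 {f x : G} (hf : 0 ≤ f) (hx : 0 < x) : f + 2 • x ≠ x := by
  grind

lemma mv3_aux2 {f x : G} (hf : 0 ≤ f) (hx : 0 < x) : min (f + 2 • x) x = x := by
  grind

lemma mv3_aux3 {f x N g : G} (hf : 0 ≤ f) (h : min x (f + N) ≤ g) : min x N ≤ g := by
  grind

lemma mv3_aux4 {f x N : G} (hf : 0 ≤ f) (h : x < N) : x ≠ f + N ∧ min x (f + N) = x := by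
  grind

end aux

/-- Valuation-theoretic heart of the multiplicative case, valid also in residue characteristic `2`
(`v 2 ≤ 1` only). -/
theorem mult_val_gen' {K : Type*} [Field K] {Γ₀ : Type*} [LinearOrderedCommGroupWithZero Γ₀]
    (v : Valuation K Γ₀) (p : ℕ) (hp : p.Prime) (hp2 : p ≠ 2) (X : ℤ → K) (c b' : K)
    (hc0 : c ≠ 0) (hb' : v b' = 1) (h2 : v (2 : K) ≤ 1) (n2 : (2 : K) ≠ 0)
    (hX0 : ∀ j : ℤ, ¬ (p : ℤ) ∣ j → X j ≠ 0)
    (hX1 : ∀ j : ℤ, ¬ (p : ℤ) ∣ j → v (X j) < 1)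
    (hneg : ∀ i j : ℤ, (p : ℤ) ∣ i + j → X i = X j)
    (hmax : ∀ j : ℤ, ¬ (p : ℤ) ∣ j → v (X j) ≤ v (X 1))
    (hne : ∀ i j : ℤ, ¬ (p : ℤ) ∣ i → ¬ (p : ℤ) ∣ j → ¬ (p : ℤ) ∣ i + j → ¬ (p : ℤ) ∣ i - j →
      X i ≠ X j)
    (hR : ∀ i j : ℤ, ¬ (p : ℤ) ∣ i → ¬ (p : ℤ) ∣ j → ¬ (p : ℤ) ∣ i + j → ¬ (p : ℤ) ∣ i - j →
      X (i + j) * X (i - j) * (X i - X j) ^ 2 = (X i * X j - c) ^ 2)
    (hD0 : ∀ j : ℤ, ¬ (p : ℤ) ∣ j → 4 * X j ^ 2 + b' * X j + 4 * c ≠ 0)
    (hD : ∀ j : ℤ, ¬ (p : ℤ) ∣ j →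
      X (2 * j) * (X j * (4 * X j ^ 2 + b' * X j + 4 * c)) = (X j ^ 2 - c) ^ 2) :
    v (X 1) ^ p = v c ^ 2 ∧ ∀ m : ℕ, 1 ≤ m → 2 * m < p → v (X (m : ℤ)) = v (X 1) ^ m := by
  have hpi : Prime (p : ℤ) := Nat.prime_iff_prime_int.1 hp
  have hp3 : 3 ≤ p := by
    have := hp.two_le; omega
  have h1nd : ¬ (p : ℤ) ∣ 1 := by
    intro h
    have := Int.le_of_dvd (by norm_num) h
    omega
  have h2nd : ∀ j : ℤ, ¬ (p : ℤ) ∣ j → ¬ (p : ℤ) ∣ 2 * j := by
    intro j hj h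
    rcases hpi.dvd_or_dvd h with h | h
    · have := Int.le_of_dvd (by norm_num) h
      omega
    · exact hj h
  have h4 : v (4 : K) ≤ 1 := by
    have : (4 : K) = 2 * 2 := by norm_num
    rw [this, map_mul]
    exact mul_le_one' h2 h2
  have n4 : (4 : K) ≠ 0 := by
    have : (4 : K) = 2 * 2 := by norm_num
    rw [this]; exact mul_ne_zero n2 n2
  have nb : b' ≠ 0 := (v.ne_zero_iff).1 (by rw [hb']; exact one_ne_zero)
  have o4 : 0 ≤ ord v (4 : K) := by
    rw [← ord_one (v := v), ord_le_iff one_ne_zero n4, map_one]; exact h4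
  have ob : ord v b' = 0 := (ord_eq_zero_iff nb).2 hb'
  have key := (comb_gen p hp hp2 (ord v c) (fun j => ord v (X j))
    (fun j hj => (ord_pos_iff (hX0 j hj)).2 (hX1 j hj))
    (fun i j hij => by rw [hneg i j hij])
    (fun j hj => (ord_le_iff (hX0 1 h1nd) (hX0 j hj)).2 (hmax j hj))
    (by
      intro i j hi hj hij hij'
      have e := hR i j hi hj hij hij'
      have d0 : X i - X j ≠ 0 := sub_ne_zero.2 (hne i j hi hj hij hij')
      have l0 : X (i + j) * X (i - j) * (X i - X j) ^ 2 ≠ 0 :=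
        mul_ne_zero (mul_ne_zero (hX0 _ hij) (hX0 _ hij')) (pow_ne_zero 2 d0)
      have r0 : X i * X j - c ≠ 0 := by
        intro h; rw [e, h] at l0; exact l0 (by simp)
      have m0 : X i * X j ≠ 0 := mul_ne_zero (hX0 i hi) (hX0 j hj)
      refine ⟨ord v (X i - X j), ord v (X i * X j - c), ?_, ?_, ?_, ?_, ?_⟩
      · have := congrArg (ord v) e
        rwa [ord_mul (mul_ne_zero (hX0 _ hij) (hX0 _ hij')) (pow_ne_zero 2 d0),
          ord_mul (hX0 _ hij) (hX0 _ hij'), ord_pow d0, ord_pow r0] at this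
      · exact min_le_ord_sub (hX0 i hi) (hX0 j hj) d0
      · intro h; exact (ord_sub_of_ne (hX0 i hi) (hX0 j hj) h).2
      · rw [← ord_mul (hX0 i hi) (hX0 j hj)]
        exact min_le_ord_sub m0 hc0 r0
      · rw [← ord_mul (hX0 i hi) (hX0 j hj)]
        intro h; exact (ord_sub_of_ne m0 hc0 h).2)
    (by
      intro j hj
      have e := hD j hj
      have x0 := hX0 j hj
      have g0 := hD0 j hj
      have l0 : X (2 * j) * (X j * (4 * X j ^ 2 + b' * X j + 4 * c)) ≠ 0 :=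
        mul_ne_zero (hX0 _ (h2nd j hj)) (mul_ne_zero x0 g0)
      have r0 : X j ^ 2 - c ≠ 0 := by
        intro h; rw [e, h] at l0; exact l0 (by simp)
      have s0 : X j ^ 2 ≠ 0 := pow_ne_zero 2 x0
      have hpos : 0 < ord v (X j) := (ord_pos_iff x0).2 (hX1 j hj)
      -- `ord (4 X² + b' X) = ord X`
      have t1 : ord v (4 * X j ^ 2) = ord v (4 : K) + 2 • ord v (X j) := by
        rw [ord_mul n4 s0, ord_pow x0]
      have t2 : ord v (b' * X j) = ord v (X j) := by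
        rw [ord_mul nb x0, ob, zero_add]
      have t3 : ord v (4 * c) = ord v (4 : K) + ord v c := by
        rw [ord_mul n4 hc0]
      have t12ne : ord v (4 * X j ^ 2) ≠ ord v (b' * X j) := by
        rw [t1, t2]; exact mv3_aux1 o4 hpos
      obtain ⟨u0, u1⟩ := ord_add_of_ne (mul_ne_zero n4 s0) (mul_ne_zero nb x0) t12ne
      have u2 : ord v (4 * X j ^ 2 + b' * X j) = ord v (X j) := by
        rw [u1, t1, t2]; exact mv3_aux2 o4 hpos
      refine ⟨ord v (X j ^ 2 - c), ord v (4 * X j ^ 2 + b' * X j + 4 * c), ?_, ?_, ?_, ?_, ?_⟩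
      · have := congrArg (ord v) e
        rw [ord_mul (hX0 _ (h2nd j hj)) (mul_ne_zero x0 g0), ord_mul x0 g0, ord_pow r0] at this
        rw [← this, add_assoc]
      · rw [← ord_pow x0]
        exact min_le_ord_sub s0 hc0 r0
      · rw [← ord_pow x0]
        intro h; exact (ord_sub_of_ne s0 hc0 h).2
      · have := min_le_ord_add (v := v) u0 (mul_ne_zero n4 hc0) g0
        rw [u2, t3] at this
        exact mv3_aux3 o4 this
      · intro h
        obtain ⟨w1, w2⟩ := mv3_aux4 o4 h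
        have := (ord_add_of_ne (v := v) u0 (mul_ne_zero n4 hc0) (by rw [u2, t3]; exact w1)).2
        rw [this, u2, t3, w2]))
  have x1 := hX0 1 h1nd
  refine ⟨?_, fun m hm1 hm2 => ?_⟩
  · have : ord v (X 1 ^ p) = ord v (c ^ 2) := by
      rw [ord_pow x1, ord_pow hc0]; exact key.1
    rw [ord_eq_iff (pow_ne_zero p x1) (pow_ne_zero 2 hc0), map_pow, map_pow] at this
    exact this
  · have hm : ¬ (p : ℤ) ∣ (m : ℤ) := by
      intro h
      have := Nat.le_of_dvd (by omega) (Int.natCast_dvd_natCast.1 h)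
      omega
    have h3 := key.2 m hm1 hm2
    rw [← ord_pow x1, ord_eq_iff (hX0 m hm) (pow_ne_zero m x1), map_pow] at h3
    exact h3

section Gamma

variable {Γ₀ : Type*} [LinearOrderedCommGroupWithZero Γ₀]

lemma eq_one_of_mul_eq_one {a b : Γ₀} (h : a * b = 1) (ha : a ≤ 1) (hb : b ≤ 1) :
    a = 1 ∧ b = 1 := by
  constructor
  · refine le_antisymm ha ?_
    calc 1 = a * b := h.symm
      _ ≤ a * 1 := by gcongr
      _ = a := mul_one a
  · refine le_antisymm hb ?_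
    calc 1 = a * b := h.symm
      _ ≤ 1 * b := by gcongr
      _ = b := one_mul b

end Gamma

section Pts

variable {K : Type*} [Field K] {W : WeierstrassCurve.Affine K}
  {x0 c b' : K} {Γ₀ : Type*} [LinearOrderedCommGroupWithZero Γ₀] (v : Valuation K Γ₀)

lemma v_two : v (2 : K) ≤ 1 := by
  have : (2 : K) = 1 + 1 := by norm_num
  rw [this]
  exact v.map_add_le (by simp) (by simp)

lemma v_four : v (4 : K) ≤ 1 := by
  have : (4 : K) = 2 * 2 := by norm_num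
  rw [this, map_mul]
  exact mul_le_one' (v_two v) (v_two v)

lemma v_sub_eq_one {x y : K} (hx : v x = 1) (hy : v y < 1) : v (x - y) = 1 := by
  rw [← hx]
  exact Valuation.map_sub_eq_of_lt_left v (by rw [hx]; exact hy)

lemma v_quad_le (hb' : v b' = 1) (hcv : v c < 1) {X : K} (hX : v X ≤ 1) :
    v (4 * X ^ 2 + b' * X + 4 * c) ≤ 1 := by
  refine v.map_add_le (v.map_add_le ?_ ?_) ?_
  · rw [map_mul, map_pow]
    exact mul_le_one' (v_four v) (pow_le_one' hX 2)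
  · rw [map_mul, hb', one_mul]; exact hX
  · rw [map_mul]
    exact mul_le_one' (v_four v) hcv.le

variable [DecidableEq K]

lemma prod_units (H : ShiftData W x0 c b') (hcv : v c < 1) {P P' : W.Point} (hP : P ≠ 0)
    (hP' : P' ≠ 0) (hx : xc P ≠ xc P') (h1 : v (xc P - x0) = 1) (h2 : v (xc P' - x0) = 1)
    (i1 : v (xc (P + P') - x0) ≤ 1) (i2 : v (xc (P - P') - x0) ≤ 1) :
    v (xc (P + P') - x0) = 1 ∧ v (xc (P - P') - x0) = 1 ∧ v (xc P - xc P') = 1 := by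
  have e := congrArg v (H.prod hP hP' hx)
  have hr : v ((xc P - x0) * (xc P' - x0) - c) = 1 :=
    v_sub_eq_one v (by rw [map_mul, h1, h2, one_mul]) hcv
  rw [map_mul, map_mul, map_pow, map_pow, hr, one_pow] at e
  have hd : v ((xc P - x0) - (xc P' - x0)) ≤ 1 := Valuation.map_sub_le _ h1.le h2.le
  obtain ⟨e1, e2⟩ := eq_one_of_mul_eq_one e (mul_le_one' i1 i2) (pow_le_one' hd 2)
  obtain ⟨e3, e4⟩ := eq_one_of_mul_eq_one e1 i1 i2
  refine ⟨e3, e4, ?_⟩
  have e5 : v ((xc P - x0) - (xc P' - x0)) = 1 := by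
    rw [sq] at e2
    exact (eq_one_of_mul_eq_one e2 hd hd).1
  rwa [sub_sub_sub_cancel_right] at e5

lemma dbl_units (H : ShiftData W x0 c b') (hb' : v b' = 1) (hcv : v c < 1) {P : W.Point}
    (hP : P ≠ 0) (h2P : P + P ≠ 0) (h1 : v (xc P - x0) = 1) (i1 : v (xc (P + P) - x0) ≤ 1) :
    v (xc (P + P) - x0) = 1 ∧ v (psiX W (xc P)) = 1 := by
  have e := congrArg v (H.dbl hP h2P)
  have hr : v ((xc P - x0) ^ 2 - c) = 1 :=
    v_sub_eq_one v (by rw [map_pow, h1, one_pow]) hcv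
  rw [← H.psi, map_mul, map_pow, hr, one_pow] at e
  have hpsi : v (4 * xc P ^ 3 + W.b₂ * xc P ^ 2 + 2 * W.b₄ * xc P + W.b₆) ≤ 1 := by
    rw [H.psi, map_mul]
    exact mul_le_one' h1.le (v_quad_le v hb' hcv h1.le)
  exact eq_one_of_mul_eq_one e i1 hpsi

end Pts

end DichAux

open DichAux

variable {K : Type*} [Field K] [CharZero K] [DecidableEq K] {W : WeierstrassCurve.Affine K}
  {x0 c b' : K} {Γ₀ : Type*} [LinearOrderedCommGroupWithZero Γ₀] (v : Valuation K Γ₀)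

namespace DichAux

omit [CharZero K] in
lemma mod_nsmul {N : ℕ} {Q : W.Point} (hQ : addOrderOf Q = N) (k : ℕ) : (k % N) • Q = k • Q := by
  rw [← hQ]; exact mod_addOrderOf_nsmul Q k

lemma not_dvd_mul {N : ℕ} (hN : N.Prime) {a b : ℕ} (ha : ¬ N ∣ a) (hb : ¬ N ∣ b) : ¬ N ∣ a * b :=
  fun h => (hN.dvd_mul.mp h).elim ha hb

lemma not_dvd_of_lt {N k : ℕ} (h0 : 0 < k) (h1 : k < N) : ¬ N ∣ k :=
  Nat.not_dvd_of_pos_of_lt h0 h1

omit [CharZero K] in
lemma order_nsmul {N : ℕ} (hN : N.Prime) {Q : W.Point} (hQ : addOrderOf Q = N) {a : ℕ}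
    (ha : ¬ N ∣ a) : addOrderOf (a • Q) = N := by
  have : Fact N.Prime := ⟨hN⟩
  apply addOrderOf_eq_prime
  · rw [smul_comm, ← hQ, addOrderOf_nsmul_eq_zero, smul_zero]
  · exact nsmul_ne_zero_of_order hQ ha

/-- multiplication by `a` permutes `{1, …, N - 1}` modulo `N`. -/
lemma prod_mul_mod {M : Type*} [CommMonoid M] {N : ℕ} (hN : N.Prime) {a : ℕ} (ha : ¬ N ∣ a)
    (f : ℕ → M) : ∏ k ∈ Finset.Ico 1 N, f ((k * a) % N) = ∏ k ∈ Finset.Ico 1 N, f k := by
  have hinj : Set.InjOn (fun k => (k * a) % N) (Finset.Ico 1 N : Set ℕ) := by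
    intro k hk k' hk' h
    simp only [Finset.coe_Ico, Set.mem_Ico] at hk hk'
    have h1 : k * a ≡ k' * a [MOD N] := h
    have hcop : Nat.gcd N a = 1 := (Nat.Prime.coprime_iff_not_dvd hN).mpr ha
    have h2 : k ≡ k' [MOD N] := Nat.ModEq.cancel_right_of_coprime hcop h1
    have h3 := Nat.ModEq.eq_of_lt_of_lt h2 hk.2 hk'.2
    exact h3
  have himg : (Finset.Ico 1 N).image (fun k => (k * a) % N) = Finset.Ico 1 N := by
    apply Finset.eq_of_subset_of_card_le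
    · intro x hx
      rw [Finset.mem_image] at hx
      obtain ⟨k, hk, rfl⟩ := hx
      rw [Finset.mem_Ico] at hk ⊢
      refine ⟨?_, Nat.mod_lt _ hN.pos⟩
      rw [Nat.one_le_iff_ne_zero]
      intro h0
      exact not_dvd_mul hN (not_dvd_of_lt hk.1 hk.2) ha (Nat.dvd_of_mod_eq_zero h0)
    · rw [Finset.card_image_of_injOn hinj]
  conv_rhs => rw [← himg]
  rw [Finset.prod_image hinj]

end DichAux

omit [CharZero K] in
theorem lam_nsmul {N : ℕ} (hN : N.Prime) (Q : W.Point) (hQ : addOrderOf Q = N) (a : ℕ)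
    (ha : ¬ N ∣ a) : lam W N (a • Q) = lam W N Q := by
  unfold lam
  have h := prod_mul_mod hN ha (fun k => psiX W (xc (k • Q)))
  have h2 : ∏ k ∈ Finset.Ico 1 N, psiX W (xc (k • a • Q)) =
      ∏ k ∈ Finset.Ico 1 N, psiX W (xc (((k * a) % N) • Q)) :=
    Finset.prod_congr rfl fun k _ => by rw [mod_nsmul hQ, mul_smul]
  rw [h2, h]

omit [CharZero K] in
theorem unit_all (H : ShiftData W x0 c b') (hx0 : v x0 ≤ 1) (hb' : v b' = 1) (hcv : v c < 1)
    {N : ℕ} (hN : N.Prime) (hN2 : N ≠ 2) (Q : W.Point) (hQ : addOrderOf Q = N)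
    (hint : ∀ k : ℕ, ¬ N ∣ k → v (xc (k • Q)) ≤ 1) (h1 : v (xc Q - x0) = 1) (k : ℕ)
    (hk : ¬ N ∣ k) : v (xc (k • Q) - x0) = 1 ∧ v (psiX W (xc (k • Q))) = 1 := by
  have hN3 : 3 ≤ N := by have := hN.two_le; omega
  have hXint : ∀ k, ¬ N ∣ k → v (xc (k • Q) - x0) ≤ 1 :=
    fun k hk => Valuation.map_sub_le _ (hint k hk) hx0
  have hne0 : ∀ k, ¬ N ∣ k → k • Q ≠ 0 := fun k hk => nsmul_ne_zero_of_order hQ hk
  have h2N : ¬ N ∣ 2 := not_dvd_of_lt (by norm_num) (by omega)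
  have hdbl : ∀ k, ¬ N ∣ k → v (xc (k • Q) - x0) = 1 →
      v (xc ((2 * k) • Q) - x0) = 1 ∧ v (psiX W (xc (k • Q))) = 1 := by
    intro k hk h
    have e : (2 * k) • Q = k • Q + k • Q := by rw [two_mul, add_nsmul]
    have h2k := not_dvd_mul hN h2N hk
    rw [e]
    exact dbl_units v H hb' hcv (hne0 k hk) (by rw [← e]; exact hne0 _ h2k) h
      (by rw [← e]; exact hXint _ h2k)
  have hQ0 : Q ≠ 0 := by
    have := hne0 1 (not_dvd_of_lt one_pos (by omega))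
    rwa [one_nsmul] at this
  have hind : ∀ m, 1 ≤ m → m ≤ N - 1 → v (xc (m • Q) - x0) = 1 := by
    intro m
    induction m with
    | zero => intro h; omega
    | succ m ih =>
      intro _ hm
      rcases Nat.lt_or_ge m 1 with h0 | h0
      · have : m = 0 := by omega
        subst this; simpa using h1
      rcases Nat.lt_or_ge m 2 with h2 | h2
      · have : m = 1 := by omega
        subst this
        have := (hdbl 1 (not_dvd_of_lt one_pos (by omega)) (by simpa using h1)).1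
        simpa using this
      · have hm1 := ih h0 (by omega)
        have ea : (m + 1) • Q = m • Q + Q := succ_nsmul Q m
        have es : (m - 1) • Q = m • Q - Q := by
          rw [sub_nsmul Q (by omega : 1 ≤ m), one_nsmul, ← sub_eq_add_neg]
        have nm : ¬ N ∣ m := not_dvd_of_lt (by omega) (by omega)
        have na : ¬ N ∣ m + 1 := not_dvd_of_lt (by omega) (by omega)
        have ns : ¬ N ∣ m - 1 := not_dvd_of_lt (by omega) (by omega)
        have hx : xc (m • Q) ≠ xc Q :=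
          xc_ne_of_add_sub_ne_zero (hne0 m nm) hQ0 (by rw [← ea]; exact hne0 _ na)
            (by rw [← es]; exact hne0 _ ns)
        rw [ea]
        exact (prod_units v H hcv (hne0 m nm) hQ0 hx hm1 h1 (by rw [← ea]; exact hXint _ na)
          (by rw [← es]; exact hXint _ ns)).1
  have hkm : v (xc (k • Q) - x0) = 1 := by
    rw [← mod_nsmul hQ k]
    have h0 : k % N ≠ 0 := fun h => hk (Nat.dvd_of_mod_eq_zero h)
    have h1 : k % N < N := Nat.mod_lt _ hN.pos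
    exact hind _ (by omega) (by omega)
  exact ⟨hkm, (hdbl k hk hkm).2⟩

omit [CharZero K] in
theorem unit_sub (H : ShiftData W x0 c b') (hx0 : v x0 ≤ 1) (hb' : v b' = 1) (hcv : v c < 1)
    {N : ℕ} (hN : N.Prime) (hN2 : N ≠ 2) (Q : W.Point) (hQ : addOrderOf Q = N)
    (hint : ∀ k : ℕ, ¬ N ∣ k → v (xc (k • Q)) ≤ 1) (h1 : v (xc Q - x0) = 1) (i j : ℕ)
    (hi : 1 ≤ i) (hij : i < j) (hj : 2 * j < N) : v (xc (i • Q) - xc (j • Q)) = 1 := by
  have hXint : ∀ k, ¬ N ∣ k → v (xc (k • Q) - x0) ≤ 1 :=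
    fun k hk => Valuation.map_sub_le _ (hint k hk) hx0
  have hne0 : ∀ k, ¬ N ∣ k → k • Q ≠ 0 := fun k hk => nsmul_ne_zero_of_order hQ hk
  have ni : ¬ N ∣ i := not_dvd_of_lt (by omega) (by omega)
  have nj : ¬ N ∣ j := not_dvd_of_lt (by omega) (by omega)
  have na : ¬ N ∣ j + i := not_dvd_of_lt (by omega) (by omega)
  have ns : ¬ N ∣ j - i := not_dvd_of_lt (by omega) (by omega)
  have ea : (j + i) • Q = j • Q + i • Q := add_nsmul Q j i
  have es : (j - i) • Q = j • Q - i • Q := by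
    rw [sub_nsmul Q hij.le, ← sub_eq_add_neg]
  have hx : xc (j • Q) ≠ xc (i • Q) :=
    xc_ne_of_add_sub_ne_zero (hne0 j nj) (hne0 i ni) (by rw [← ea]; exact hne0 _ na)
      (by rw [← es]; exact hne0 _ ns)
  have := (prod_units v H hcv (hne0 j nj) (hne0 i ni) hx
    (unit_all v H hx0 hb' hcv hN hN2 Q hQ hint h1 j nj).1
    (unit_all v H hx0 hb' hcv hN hN2 Q hQ hint h1 i ni).1 (by rw [← ea]; exact hXint _ na)
    (by rw [← es]; exact hXint _ ns)).2.2
  rwa [Valuation.map_sub_swap]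

omit [CharZero K] in
theorem nonunit_all (H : ShiftData W x0 c b') (hx0 : v x0 ≤ 1) (hb' : v b' = 1) (hcv : v c < 1)
    {N : ℕ} (hN : N.Prime) (hN2 : N ≠ 2) (Q : W.Point) (hQ : addOrderOf Q = N)
    (hint : ∀ k : ℕ, ¬ N ∣ k → v (xc (k • Q)) ≤ 1) (h1 : v (xc Q - x0) < 1) (k : ℕ)
    (hk : ¬ N ∣ k) : v (xc (k • Q) - x0) < 1 := by
  refine lt_of_le_of_ne (Valuation.map_sub_le _ (hint k hk) hx0) (fun h => ?_)
  have hcop : Nat.Coprime k N := ((Nat.Prime.coprime_iff_not_dvd hN).mpr hk).symm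
  obtain ⟨k', -, hk'⟩ := Nat.exists_mul_mod_eq_one_of_coprime hcop hN.one_lt
  have nk' : ¬ N ∣ k' := by
    intro hd
    have : k * k' % N = 0 := Nat.mod_eq_zero_of_dvd (Dvd.dvd.mul_left hd k)
    omega
  have h2 := (unit_all v H hx0 hb' hcv hN hN2 (k • Q) (order_nsmul hN hQ hk)
    (fun m hm => by rw [smul_smul]; exact hint _ (not_dvd_mul hN hm hk)) h k' nk').1
  rw [smul_smul, mul_comm, ← mod_nsmul hQ, hk', one_nsmul] at h2
  exact absurd h2 h1.ne

omit [CharZero K] [DecidableEq K] in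
theorem disc_ne_zero (H : ShiftData W x0 c b') (hb' : v b' = 1) (hcv : v c < 1) (hc0 : c ≠ 0) :
    W.Δ ≠ 0 := by
  rw [ShiftData.disc_eq H]
  refine mul_ne_zero (pow_ne_zero 2 hc0) ?_
  have h64 : v (64 * c) < 1 := by
    have : (64 : K) = 4 * 4 * 4 := by norm_num
    rw [map_mul, this, map_mul, map_mul]
    calc v 4 * v 4 * v 4 * v c ≤ 1 * v c := by
          gcongr
          exact mul_le_one' (mul_le_one' (v_four v) (v_four v)) (v_four v)
      _ < 1 := by rw [one_mul]; exact hcv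
  have h1 : v (b' ^ 2 - 64 * c) = 1 := v_sub_eq_one v (by rw [map_pow, hb', one_pow]) h64
  intro h0
  rw [h0, map_zero] at h1
  exact zero_ne_one h1

omit [CharZero K] in
theorem val_lam_unit (H : ShiftData W x0 c b') (hx0 : v x0 ≤ 1) (hb' : v b' = 1) (hcv : v c < 1)
    (hc0 : c ≠ 0)
    {N : ℕ} (hN : N.Prime) (hN2 : N ≠ 2) (hvN : v (N : K) = 1) (Q : W.Point)
    (hQ : addOrderOf Q = N) (hint : ∀ k : ℕ, ¬ N ∣ k → v (xc (k • Q)) ≤ 1)
    (h1 : v (xc Q - x0) = 1) : v (lam W N Q) * v W.Δ ^ (N - 1) = 1 := by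
  have hΔ : v W.Δ ≠ 0 := (v.ne_zero_iff).2 (disc_ne_zero v H hb' hcv hc0)
  have hprod : ∏ k ∈ Finset.Ico 1 N, v (psiX W (xc (k • Q))) = 1 :=
    Finset.prod_eq_one fun k hk => by
      rw [Finset.mem_Ico] at hk
      exact (unit_all v H hx0 hb' hcv hN hN2 Q hQ hint h1 k (not_dvd_of_lt hk.1 hk.2)).2
  rw [lam, map_div₀, map_mul, map_pow, map_pow, map_pow, map_prod, hprod, hvN, one_pow, one_pow,
    one_mul, div_mul_cancel₀ _ (pow_ne_zero _ hΔ)]

namespace DichAux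

lemma prod_pow_two_mul {M : Type*} [CommMonoid M] (t : M) (h : ℕ) :
    ∏ k ∈ Finset.Ico 1 (h + 1), t ^ (2 * k) = t ^ (h * (h + 1)) := by
  induction h with
  | zero => simp
  | succ h ih =>
    rw [Finset.prod_Ico_succ_top (by omega), ih, ← pow_add]
    congr 1
    ring

lemma prod_symm {M : Type*} [CommMonoid M] (g : ℕ → M) (h : ℕ)
    (hg : ∀ k, 1 ≤ k → k ≤ h → g (2 * h + 1 - k) = g k) :
    ∏ k ∈ Finset.Ico 1 (2 * h + 1), g k = (∏ k ∈ Finset.Ico 1 (h + 1), g k) ^ 2 := by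
  rw [← Finset.prod_Ico_consecutive g (by omega : 1 ≤ h + 1) (by omega : h + 1 ≤ 2 * h + 1), sq]
  congr 1
  have := Finset.prod_Ico_reflect g 1 (m := h + 1) (n := 2 * h + 1) (by omega)
  rw [show 2 * h + 1 + 1 - (h + 1) = h + 1 by omega, show 2 * h + 1 + 1 - 1 = 2 * h + 1 by omega]
    at this
  rw [← this]
  exact Finset.prod_congr rfl fun k hk => by
    rw [Finset.mem_Ico] at hk
    exact hg k hk.1 (by omega)

end DichAux

omit [CharZero K] in
/-- the case where `Q` has maximal `v X` among its multiples. -/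
theorem val_lam_nonunit_max (H : ShiftData W x0 c b') (hb' : v b' = 1)
    (hc0 : c ≠ 0) (hΔ : v W.Δ = v c ^ 2)
    {N : ℕ} (hN : N.Prime) (hN2 : N ≠ 2) (hvN : v (N : K) = 1) (Q : W.Point)
    (hQ : addOrderOf Q = N)
    (hlt : ∀ k : ℕ, ¬ N ∣ k → v (xc (k • Q) - x0) < 1)
    (hmax : ∀ k : ℕ, ¬ N ∣ k → v (xc (k • Q) - x0) ≤ v (xc Q - x0)) :
    ∃ t : Γ₀, t ≠ 0 ∧ t < 1 ∧ v (lam W N Q) = t ^ (N - 1) ∧ v W.Δ = t ^ N := by
  have hN3 : 3 ≤ N := by have := hN.two_le; omega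
  have hpi : Prime (N : ℤ) := Nat.prime_iff_prime_int.1 hN
  have hz : ∀ j : ℤ, j • Q = 0 ↔ (N : ℤ) ∣ j := fun j => by
    rw [← hQ]; exact (addOrderOf_dvd_iff_zsmul_eq_zero).symm
  have hNQ : N • Q = 0 := by rw [← hQ]; exact addOrderOf_nsmul_eq_zero Q
  have hrep : ∀ n : ℤ, ¬ (N : ℤ) ∣ n → ∃ m : ℕ, ¬ N ∣ m ∧ n • Q = m • Q := by
    intro n hn
    have hp0 : (0 : ℤ) < N := by exact_mod_cast hN.pos
    have h1 : 0 ≤ n % N := Int.emod_nonneg _ hp0.ne'
    have h2 : n % N < N := Int.emod_lt_of_pos _ hp0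
    have h3 : n % N ≠ 0 := fun h => hn (Int.dvd_of_emod_eq_zero h)
    refine ⟨(n % N).toNat, not_dvd_of_lt (by omega) (by omega), ?_⟩
    have h4 : ((n % N).toNat : ℤ) = n % N := Int.toNat_of_nonneg h1
    rw [← natCast_zsmul, h4]
    conv_lhs => rw [← Int.mul_ediv_add_emod n N]
    rw [add_smul, mul_smul, smul_comm, natCast_zsmul, hNQ, smul_zero, zero_add]
  have h2nd : ∀ j : ℤ, ¬ (N : ℤ) ∣ j → ¬ (N : ℤ) ∣ 2 * j := by
    intro j hj h
    rcases hpi.dvd_or_dvd h with h | h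
    · have := Int.le_of_dvd (by norm_num) h
      omega
    · exact hj h
  have hne0 : ∀ j : ℤ, ¬ (N : ℤ) ∣ j → j • Q ≠ 0 := fun j hj h => hj ((hz j).1 h)
  have heta : ∀ j : ℤ, ¬ (N : ℤ) ∣ j →
      2 * yc (j • Q) + W.a₁ * xc (j • Q) + W.a₃ ≠ 0 := by
    intro j hj h
    have h1 := (add_self_eq_zero_iff (hne0 j hj)).2 h
    rw [← two_zsmul, smul_smul] at h1
    exact h2nd j hj ((hz _).1 h1)
  have hprod : ∀ j : ℤ, ¬ (N : ℤ) ∣ j →
      (xc (j • Q) - x0) * (4 * (xc (j • Q) - x0) ^ 2 + b' * (xc (j • Q) - x0) + 4 * c) ≠ 0 := by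
    intro j hj
    rw [← H.eta_sq (hne0 j hj)]
    exact pow_ne_zero 2 (heta j hj)
  have hxne : ∀ i j : ℤ, ¬ (N : ℤ) ∣ i → ¬ (N : ℤ) ∣ j → ¬ (N : ℤ) ∣ i + j → ¬ (N : ℤ) ∣ i - j →
      xc (i • Q) ≠ xc (j • Q) := by
    intro i j hi hj hij hij'
    apply xc_ne_of_add_sub_ne_zero (hne0 i hi) (hne0 j hj)
    · rw [← add_smul]; exact hne0 _ hij
    · rw [← sub_smul]; exact hne0 _ hij'
  have key := mult_val_gen' v N hN hN2 (fun j : ℤ => xc (j • Q) - x0) c b' hc0 hb' (v_two v) H.h2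
    (fun j hj => left_ne_zero_of_mul (hprod j hj))
    (fun j hj => by
      obtain ⟨m, hm, e⟩ := hrep j hj
      rw [e]; exact hlt m hm)
    (fun i j hij => by
      have : i • Q = -(j • Q) := by
        rw [eq_neg_iff_add_eq_zero, ← add_smul]; exact (hz _).2 hij
      rw [this, xc_neg])
    (fun j hj => by
      obtain ⟨m, hm, e⟩ := hrep j hj
      rw [e, one_smul]; exact hmax m hm)
    (fun i j hi hj hij hij' h => hxne i j hi hj hij hij' (by simpa using h))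
    (fun i j hi hj hij hij' => by
      rw [add_smul, sub_smul]
      exact H.prod (hne0 i hi) (hne0 j hj) (hxne i j hi hj hij hij'))
    (fun j hj => right_ne_zero_of_mul (hprod j hj))
    (fun j hj => by
      have h1 : (2 * j) • Q = j • Q + j • Q := by rw [two_mul, add_smul]
      rw [h1]
      refine H.dbl (hne0 j hj) ?_
      rw [← h1]; exact hne0 _ (h2nd j hj))
  simp only [one_smul, natCast_zsmul] at key
  obtain ⟨key1, key2⟩ := key
  set t : Γ₀ := v (xc Q - x0) with ht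
  have h1N : ¬ N ∣ 1 := not_dvd_of_lt one_pos (by omega)
  have ht1 : t < 1 := by
    have := hlt 1 h1N
    rwa [one_nsmul] at this
  have ht0 : t ≠ 0 := by
    have h1Z : ¬ (N : ℤ) ∣ 1 := by
      intro h
      exact h1N (by exact_mod_cast h)
    have := left_ne_zero_of_mul (hprod 1 h1Z)
    rw [one_smul] at this
    exact (v.ne_zero_iff).2 this
  have ht0' : 0 < t := zero_lt_iff.2 ht0
  refine ⟨t, ht0, ht1, ?_, by rw [hΔ, key1]⟩
  -- valuation of `Ψ`
  have hpsi : ∀ m : ℕ, 1 ≤ m → 2 * m < N → v (psiX W (xc (m • Q))) = t ^ (2 * m) := by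
    intro m hm1 hm2
    have hX := key2 m hm1 hm2
    have hs0 : 0 < t ^ m := pow_pos ht0' m
    have hs1 : t ^ m < 1 := pow_lt_one₀ zero_le ht1 (by omega)
    have hc : v c < t ^ m := by
      apply lt_of_pow_lt_pow_left₀ 2 zero_le
      rw [← key1, ← pow_mul, mul_comm m 2]
      exact pow_lt_pow_right_of_lt_one₀ ht0' ht1 hm2
    have e1 : v (b' * (xc (m • Q) - x0)) = t ^ m := by rw [map_mul, hb', one_mul, hX]
    have e2 : v (4 * (xc (m • Q) - x0) ^ 2) < t ^ m := by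
      rw [map_mul, map_pow, hX]
      calc v 4 * (t ^ m) ^ 2 ≤ 1 * (t ^ m) ^ 2 := by gcongr; exact v_four v
        _ = t ^ m * t ^ m := by rw [one_mul, sq]
        _ < t ^ m * 1 := by gcongr
        _ = t ^ m := mul_one _
    have e3 : v (4 * c) < t ^ m := by
      rw [map_mul]
      calc v 4 * v c ≤ 1 * v c := by gcongr; exact v_four v
        _ = v c := one_mul _
        _ < t ^ m := hc
    have e4 : v (4 * (xc (m • Q) - x0) ^ 2 + b' * (xc (m • Q) - x0)) = t ^ m := by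
      rw [Valuation.map_add_eq_of_lt_right v (by rw [e1]; exact e2), e1]
    have e5 : v (4 * (xc (m • Q) - x0) ^ 2 + b' * (xc (m • Q) - x0) + 4 * c) = t ^ m := by
      rw [Valuation.map_add_eq_of_lt_left v (by rw [e4]; exact e3), e4]
    have e6 : psiX W (xc (m • Q)) = (xc (m • Q) - x0) *
        (4 * (xc (m • Q) - x0) ^ 2 + b' * (xc (m • Q) - x0) + 4 * c) := H.psi _
    rw [e6, map_mul, hX, e5, ← pow_add, two_mul]
  obtain ⟨h, rfl⟩ : ∃ h, N = 2 * h + 1 := by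
    rcases hN.eq_two_or_odd' with h | h
    · exact absurd h hN2
    · exact h
  have hsymm : ∀ k, 1 ≤ k → k ≤ h →
      v (psiX W (xc ((2 * h + 1 - k) • Q))) = v (psiX W (xc (k • Q))) := by
    intro k _ hk
    have : (2 * h + 1 - k) • Q = -(k • Q) := by
      rw [sub_nsmul Q (by omega : k ≤ 2 * h + 1), hNQ, zero_add]
    rw [this, xc_neg]
  have hP : ∏ k ∈ Finset.Ico 1 (2 * h + 1), v (psiX W (xc (k • Q))) = (t ^ (h * (h + 1))) ^ 2 := by
    rw [prod_symm (fun k => v (psiX W (xc (k • Q)))) h hsymm, ← prod_pow_two_mul]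
    congr 1
    exact Finset.prod_congr rfl fun k hk => by
      rw [Finset.mem_Ico] at hk
      exact hpsi k hk.1 (by omega)
  rw [lam, map_div₀, map_mul, map_pow, map_pow, map_pow, map_prod, hP, hvN, one_pow, one_mul, hΔ,
    ← key1, div_eq_iff (pow_ne_zero _ (pow_ne_zero _ ht0)), ← pow_mul, ← pow_mul, ← pow_mul,
    ← pow_add]
  congr 1
  simp only [Nat.add_sub_cancel]
  ring

omit [CharZero K] in
theorem val_lam_nonunit (H : ShiftData W x0 c b') (hx0 : v x0 ≤ 1) (hb' : v b' = 1)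
    (hcv : v c < 1) (hc0 : c ≠ 0) (hΔ : v W.Δ = v c ^ 2)
    {N : ℕ} (hN : N.Prime) (hN2 : N ≠ 2) (hvN : v (N : K) = 1) (Q : W.Point)
    (hQ : addOrderOf Q = N) (hint : ∀ k : ℕ, ¬ N ∣ k → v (xc (k • Q)) ≤ 1)
    (h1 : v (xc Q - x0) < 1) :
    ∃ t : Γ₀, t ≠ 0 ∧ t < 1 ∧ v (lam W N Q) = t ^ (N - 1) ∧ v W.Δ = t ^ N := by
  have hN3 : 3 ≤ N := by have := hN.two_le; omega
  have hlt := nonunit_all v H hx0 hb' hcv hN hN2 Q hQ hint h1
  obtain ⟨j0, hj0, hmax⟩ := Finset.exists_max_image (Finset.Ico 1 N)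
    (fun j : ℕ => v (xc (j • Q) - x0)) ⟨1, by simp; omega⟩
  rw [Finset.mem_Ico] at hj0
  have nj0 : ¬ N ∣ j0 := not_dvd_of_lt hj0.1 hj0.2
  rw [← lam_nsmul hN Q hQ j0 nj0]
  refine val_lam_nonunit_max v H hb' hc0 hΔ hN hN2 hvN (j0 • Q) (order_nsmul hN hQ nj0)
    (fun k hk => by rw [smul_smul]; exact hlt _ (not_dvd_mul hN hk nj0)) (fun k hk => ?_)
  rw [smul_smul, ← mod_nsmul hQ]
  have hnd := not_dvd_mul hN hk nj0
  have h0 : (k * j0) % N ≠ 0 := fun h => hnd (Nat.dvd_of_mod_eq_zero h)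
  exact hmax _ (by rw [Finset.mem_Ico]; exact ⟨by omega, Nat.mod_lt _ hN.pos⟩)

end Fermat.Agent.MAZ.Val
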