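import Fermat.Agent.S05.Shift
import Fermat.Agent.S05.Congr

/-!
# MAZ / Val / [V2]  an integral point reduces to the node iff `x ≡ x0` (ALL residue characteristics)

`η := 2y + a₁x + a₃`, `ω := a₁ y - (3x² + 2a₂x + a₄)` (the two partial derivatives), `X := x - x0`.
KEY IDENTITY on the curve (`omega_sq`; a polynomial identity modulo the Weierstrass equation, `linear_combination (..) * equation`):
   `ω² - a₁ ω η - (a₂ + 2x) η² = x⁴ - b₄x² - 2b₆x - b₈`
and with `ShiftData` (see the proof of `S05.ShiftData.dbl`):  `x⁴ - b₄x² - 2b₆x - b₈ = (X² - c)² + x0 Ψ(x)`, `Ψ(x) = η²` (`S05.psi2_sq`).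
So `ω² = a₁ ω η + (a₂ + 2x + x0) η² + (X² - c)²`,  `η² = X (4X² + b'X + 4c)`.
* `v X < 1` : `v η < 1` from `η²`, then `v ω < 1` from `ω²`.
* `v X = 1` : if `v η < 1` and `v ω < 1` then `v (X² - c) < 1`, so `v X < 1`.
-/

set_option autoImplicit false

open Fermat.Agent.S05

namespace Fermat.Agent.MAZ.Val

variable {K : Type*} [Field K] {W : WeierstrassCurve.Affine K} {x0 c b' : K}

theorem omega_sq {P : W.Point} (hP : P ≠ 0) :
    (W.a₁ * yc P - (3 * xc P ^ 2 + 2 * W.a₂ * xc P + W.a₄)) ^ 2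
      - W.a₁ * (W.a₁ * yc P - (3 * xc P ^ 2 + 2 * W.a₂ * xc P + W.a₄)) *
          (2 * yc P + W.a₁ * xc P + W.a₃)
      - (W.a₂ + 2 * xc P) * (2 * yc P + W.a₁ * xc P + W.a₃) ^ 2
      = xc P ^ 4 - W.b₄ * xc P ^ 2 - 2 * W.b₆ * xc P - W.b₈ := by
  have e1 := equation_xc_yc hP
  simp only [WeierstrassCurve.b₄, WeierstrassCurve.b₆, WeierstrassCurve.b₈]
  linear_combination (-(W.a₁ ^ 2 + 4 * W.a₂ + 8 * xc P)) * e1

/-- `ω² = a₁ ω η + (a₂ + 2x + x0) η² + (X² - c)²`. -/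
theorem omega_sq' (H : ShiftData W x0 c b') {P : W.Point} (hP : P ≠ 0) :
    (W.a₁ * yc P - (3 * xc P ^ 2 + 2 * W.a₂ * xc P + W.a₄)) ^ 2
      = W.a₁ * (W.a₁ * yc P - (3 * xc P ^ 2 + 2 * W.a₂ * xc P + W.a₄)) *
          (2 * yc P + W.a₁ * xc P + W.a₃)
        + (W.a₂ + 2 * xc P + x0) * (2 * yc P + W.a₁ * xc P + W.a₃) ^ 2
        + ((xc P - x0) ^ 2 - c) ^ 2 := by
  have e1 := omega_sq hP
  have e2 := psi2_sq hP
  have h8 := H.b₈_eq
  have h0 := H.h0
  have hc := H.hc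
  rw [h8] at e1
  linear_combination e1 - x0 * e2 + (xc P - x0) ^ 2 * hc - 2 * (xc P - x0) * h0

variable {Γ₀ : Type*} [LinearOrderedCommGroupWithZero Γ₀] (v : Valuation K Γ₀)

theorem val_lt_one_of_sq {a : K} (h : v (a ^ 2) < 1) : v a < 1 := by
  rw [map_pow] at h
  exact (pow_lt_one_iff (two_ne_zero)).mp h

theorem singular_of_node (H : ShiftData W x0 c b')
    (h₁ : v W.a₁ ≤ 1) (h₂ : v W.a₂ ≤ 1) (h₃ : v W.a₃ ≤ 1) (h₄ : v W.a₄ ≤ 1)
    (hx0 : v x0 ≤ 1) (hb' : v b' ≤ 1) (hcv : v c < 1)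
    {P : W.Point} (hP : P ≠ 0) (hx : v (xc P) ≤ 1) (hy : v (yc P) ≤ 1)
    (hX : v (xc P - x0) < 1) :
    v (W.a₁ * yc P - (3 * xc P ^ 2 + 2 * W.a₂ * xc P + W.a₄)) < 1 ∧
      v (2 * yc P + W.a₁ * xc P + W.a₃) < 1 := by
  have e2 := H.eta_sq hP
  have e3 := omega_sq' H hP
  set x := xc P with hxdef
  set y := yc P with hydef
  set X := x - x0 with hXdef
  set η := 2 * y + W.a₁ * x + W.a₃ with hη
  set ω := W.a₁ * y - (3 * x ^ 2 + 2 * W.a₂ * x + W.a₄) with hω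
  have n2 : v (2 : K) ≤ 1 := by simpa using val_natCast_le_one v 2
  have n3 : v (3 : K) ≤ 1 := by simpa using val_natCast_le_one v 3
  have n4 : v (4 : K) ≤ 1 := by simpa using val_natCast_le_one v 4
  have mω : v ω ≤ 1 := by
    refine val_sub_le_one v (val_mul_le_one v h₁ hy) (val_add_le_one v (val_add_le_one v ?_ ?_) h₄)
    · rw [pow_two]; exact val_mul_le_one v n3 (val_mul_le_one v hx hx)
    · exact val_mul_le_one v (val_mul_le_one v n2 h₂) hx
  have hη1 : v η < 1 := by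
    apply val_lt_one_of_sq
    rw [e2]
    refine val_mul_lt_one_left v hX (val_add_le_one v (val_add_le_one v ?_ ?_) ?_)
    · rw [pow_two]; exact val_mul_le_one v n4 (val_mul_le_one v hX.le hX.le)
    · exact val_mul_le_one v hb' hX.le
    · exact val_mul_le_one v n4 hcv.le
  refine ⟨?_, hη1⟩
  apply val_lt_one_of_sq
  rw [e3]
  refine val_add_lt_one v (val_add_lt_one v ?_ ?_) ?_
  · exact val_mul_lt_one_right v (val_mul_le_one v h₁ mω) hη1
  · refine val_mul_lt_one_right v (val_add_le_one v (val_add_le_one v h₂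
      (val_mul_le_one v n2 hx)) hx0) ?_
    rw [pow_two]; exact val_mul_lt_one_left v hη1 hη1.le
  · have : v (X ^ 2 - c) < 1 := by
      refine val_sub_lt_one v ?_ hcv
      rw [pow_two]; exact val_mul_lt_one_left v hX hX.le
    rw [pow_two]; exact val_mul_lt_one_left v this this.le

theorem nonsingular_of_not_node' (H : ShiftData W x0 c b')
    (h₁ : v W.a₁ ≤ 1) (h₂ : v W.a₂ ≤ 1) (h₃ : v W.a₃ ≤ 1) (h₄ : v W.a₄ ≤ 1)
    (hx0 : v x0 ≤ 1) (hcv : v c < 1)
    {P : W.Point} (hP : P ≠ 0) (hx : v (xc P) ≤ 1) (hy : v (yc P) ≤ 1)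
    (hX : v (xc P - x0) = 1) :
    v (W.a₁ * yc P - (3 * xc P ^ 2 + 2 * W.a₂ * xc P + W.a₄)) = 1 ∨
      v (2 * yc P + W.a₁ * xc P + W.a₃) = 1 := by
  have e3 := omega_sq' H hP
  set x := xc P with hxdef
  set y := yc P with hydef
  set X := x - x0 with hXdef
  set η := 2 * y + W.a₁ * x + W.a₃ with hη
  set ω := W.a₁ * y - (3 * x ^ 2 + 2 * W.a₂ * x + W.a₄) with hω
  have n2 : v (2 : K) ≤ 1 := by simpa using val_natCast_le_one v 2
  have n3 : v (3 : K) ≤ 1 := by simpa using val_natCast_le_one v 3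
  have mη : v η ≤ 1 :=
    val_add_le_one v (val_add_le_one v (val_mul_le_one v n2 hy) (val_mul_le_one v h₁ hx)) h₃
  have mω : v ω ≤ 1 := by
    refine val_sub_le_one v (val_mul_le_one v h₁ hy) (val_add_le_one v (val_add_le_one v ?_ ?_) h₄)
    · rw [pow_two]; exact val_mul_le_one v n3 (val_mul_le_one v hx hx)
    · exact val_mul_le_one v (val_mul_le_one v n2 h₂) hx
  by_contra hcon
  push Not at hcon
  obtain ⟨hω1, hη1⟩ := hcon
  have hω' := lt_of_le_of_ne mω hω1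
  have hη' := lt_of_le_of_ne mη hη1
  have e4 : (X ^ 2 - c) ^ 2 = ω ^ 2 - W.a₁ * ω * η - (W.a₂ + 2 * x + x0) * η ^ 2 := by
    linear_combination -e3
  have s1 : v (X ^ 2 - c) < 1 := by
    apply val_lt_one_of_sq
    rw [e4]
    refine val_sub_lt_one v (val_sub_lt_one v ?_ ?_) ?_
    · rw [pow_two]; exact val_mul_lt_one_left v hω' mω
    · exact val_mul_lt_one_right v (val_mul_le_one v h₁ mω) hη'
    · refine val_mul_lt_one_right v (val_add_le_one v (val_add_le_one v h₂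
        (val_mul_le_one v n2 hx)) hx0) ?_
      rw [pow_two]; exact val_mul_lt_one_left v hη' mη
  have s2 : v (X ^ 2) < 1 := by
    have : X ^ 2 = (X ^ 2 - c) + c := by ring
    rw [this]
    exact val_add_lt_one v s1 hcv
  rw [map_pow, hX, one_pow] at s2
  exact lt_irrefl _ s2

end Fermat.Agent.MAZ.Val
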