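import Fermat.Statements.S15
import Fermat.Agent.MAZ.Val.Dich
import Fermat.Agent.MAZ.Val.Node
import Fermat.Agent.MAZ.Val.Bound
import Fermat.Agent.S05.Integral

/-!
# MAZ / Val / [V5]  `InZeroComponentAt` and the valuations of `Λ(E,Q)`, `j(E)`   (the local input of S15)

`W : WeierstrassCurve ℤ`, `E := (W.map (Int.castRingHom ℚ))⁄ℚ̄`, `ℓ ≠ N` primes, `ℓ ∣ Δ`, `ℓ ∤ c₄`, `A ∣ ℓ`, `Q ∈ E(ℚ̄)` of order `N` (odd prime).

Preliminaries: the coefficients, `b_i`, `c₄`, `Δ` of `E` are the images of those of `W` (`WeierstrassCurve.map_Δ`, `map_c₄`, `baseChange`..), hence lie in `A`;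
`A.valuation (ℓ : ℚ̄) < 1` (`LiesOverPrime`), `A.valuation (n : ℚ̄) = 1` for `ℓ ∤ n` (`S05.valuation_intCast_eq_one`),
`< 1` for `ℓ ∣ n` (`S05.valuation_intCast_lt_one`).   `x(kQ) ∈ A` : `S05.torsion_x_integral`;  `y(kQ) ∈ A` : `S05.y_integral`.
`Val.exists_shiftData` gives `x0, c, b'`.

* `inZero_iff` : `Q = some x y h`, `x, y ∈ A`.  `Nonsingular` over the residue field `⟺` (equation, automatic) and `ω̄ ≠ 0 ∨ η̄ ≠ 0`
  (`WeierstrassCurve.Affine.nonsingular_iff`; `residue a ≠ 0 ⟺ A.valuation a = 1` for `a ∈ A`); `Val.singular_of_node`, `Val.nonsingular_of_not_node'`.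
* `val_of_not_inZero`, `val_of_inZero` : `Val.val_lam_nonunit`, `Val.val_lam_unit`; `j₀ = c₄³/Δ`.
* `two_mul_ge_of_inZero` : `Q` Galois-fixed ⟹ `x(kQ) ∈ ℚ` (fixed field of `Gal(ℚ̄/ℚ)`; `σ • (k • Q) = k • Q`, `σ (xc P) = xc (σ • P)`).
  `x0' := (18 b₆ - b₂ b₄)/c₄ ∈ ℚ` satisfies `v(x0' - x0) < 1` (`Val.ShiftData.c₄_mul`).  The `(N+1)/2` rational numbers
  `x0', x(Q), .., x(((N-1)/2) Q)` are `A`-integral and pairwise incongruent (`Val.unit_all`, `Val.unit_sub`): `Val.card_le_of_pairwise_unit`.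
-/

set_option autoImplicit false

open WeierstrassCurve WeierstrassCurve.Affine
open WeierstrassCurve
open Fermat.Agent.S05 Fermat.Agent.MAZ.Ell

namespace Fermat.Agent.MAZ.Val

variable (W : WeierstrassCurve ℤ) {N ℓ : ℕ}

local notation "Qb" => AlgebraicClosure ℚ

theorem coe_map_map (n : ℤ) : algebraMap ℚ Qb ((Int.castRingHom ℚ) n) = (n : Qb) := by simp

theorem E_a₁ : ((W.map (Int.castRingHom ℚ))⁄Qb).a₁ = ((W.a₁ : ℤ) : Qb) := coe_map_map _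
theorem E_a₂ : ((W.map (Int.castRingHom ℚ))⁄Qb).a₂ = ((W.a₂ : ℤ) : Qb) := coe_map_map _
theorem E_a₃ : ((W.map (Int.castRingHom ℚ))⁄Qb).a₃ = ((W.a₃ : ℤ) : Qb) := coe_map_map _
theorem E_a₄ : ((W.map (Int.castRingHom ℚ))⁄Qb).a₄ = ((W.a₄ : ℤ) : Qb) := coe_map_map _
theorem E_a₆ : ((W.map (Int.castRingHom ℚ))⁄Qb).a₆ = ((W.a₆ : ℤ) : Qb) := coe_map_map _

theorem E_b₂ : ((W.map (Int.castRingHom ℚ))⁄Qb).b₂ = ((W.b₂ : ℤ) : Qb) := by
  show ((W.map (Int.castRingHom ℚ)).map (algebraMap ℚ Qb)).b₂ = _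
  rw [WeierstrassCurve.map_b₂, WeierstrassCurve.map_b₂, coe_map_map]
theorem E_b₄ : ((W.map (Int.castRingHom ℚ))⁄Qb).b₄ = ((W.b₄ : ℤ) : Qb) := by
  show ((W.map (Int.castRingHom ℚ)).map (algebraMap ℚ Qb)).b₄ = _
  rw [WeierstrassCurve.map_b₄, WeierstrassCurve.map_b₄, coe_map_map]
theorem E_b₆ : ((W.map (Int.castRingHom ℚ))⁄Qb).b₆ = ((W.b₆ : ℤ) : Qb) := by
  show ((W.map (Int.castRingHom ℚ)).map (algebraMap ℚ Qb)).b₆ = _
  rw [WeierstrassCurve.map_b₆, WeierstrassCurve.map_b₆, coe_map_map]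
theorem E_b₈ : ((W.map (Int.castRingHom ℚ))⁄Qb).b₈ = ((W.b₈ : ℤ) : Qb) := by
  show ((W.map (Int.castRingHom ℚ)).map (algebraMap ℚ Qb)).b₈ = _
  rw [WeierstrassCurve.map_b₈, WeierstrassCurve.map_b₈, coe_map_map]
theorem E_c₄ : ((W.map (Int.castRingHom ℚ))⁄Qb).c₄ = ((W.c₄ : ℤ) : Qb) := by
  show ((W.map (Int.castRingHom ℚ)).map (algebraMap ℚ Qb)).c₄ = _
  rw [WeierstrassCurve.map_c₄, WeierstrassCurve.map_c₄, coe_map_map]
theorem E_Δ : ((W.map (Int.castRingHom ℚ))⁄Qb).Δ = ((W.Δ : ℤ) : Qb) := by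
  show ((W.map (Int.castRingHom ℚ)).map (algebraMap ℚ Qb)).Δ = _
  rw [WeierstrassCurve.map_Δ, WeierstrassCurve.map_Δ, coe_map_map]

/-- `j(E) ∈ ℚ̄`. -/
noncomputable def jE : AlgebraicClosure ℚ :=
  ((W.c₄ : ℤ) : AlgebraicClosure ℚ) ^ 3 / ((W.Δ : ℤ) : AlgebraicClosure ℚ)

theorem jE_eq : jE W = ((W.map (Int.castRingHom ℚ))⁄(AlgebraicClosure ℚ)).c₄ ^ 3 /
    ((W.map (Int.castRingHom ℚ))⁄(AlgebraicClosure ℚ)).Δ := by
  rw [E_c₄, E_Δ, jE]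

theorem val_jE (hℓ : ℓ.Prime) (hℓc₄ : ¬ (ℓ : ℤ) ∣ W.c₄)
    (A : ValuationSubring (AlgebraicClosure ℚ)) (hA : A.LiesOverPrime ℓ) :
    A.valuation (jE W)⁻¹ = A.valuation ((W.Δ : ℤ) : Qb) := by
  have hℓA : A.valuation ((ℓ : ℕ) : Qb) < 1 := hA
  rw [jE, inv_div, map_div₀, map_pow, valuation_intCast_eq_one A hℓ hℓA hℓc₄, one_pow, div_one]

theorem val_jE_inv (hΔ : W.Δ ≠ 0) (hℓ : ℓ.Prime) (hℓΔ : (ℓ : ℤ) ∣ W.Δ) (hℓc₄ : ¬ (ℓ : ℤ) ∣ W.c₄)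
    (A : ValuationSubring (AlgebraicClosure ℚ)) (hA : A.LiesOverPrime ℓ) :
    A.valuation (jE W)⁻¹ < 1 := by
  have hℓA : A.valuation ((ℓ : ℕ) : Qb) < 1 := hA
  rw [val_jE W hℓ hℓc₄ A hA]
  exact valuation_intCast_lt_one A hℓA hℓΔ

theorem c₄_c₆_ne_zero (hℓ : ℓ.Prime) (hℓΔ : (ℓ : ℤ) ∣ W.Δ) (hℓc₄ : ¬ (ℓ : ℤ) ∣ W.c₄) :
    W.c₄ ≠ 0 ∧ W.c₆ ≠ 0 := by
  refine ⟨fun h => hℓc₄ (h ▸ dvd_zero _), fun h => hℓc₄ ?_⟩
  have h1 := W.c_relation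
  rw [h] at h1
  have h2 : (ℓ : ℤ) ∣ W.c₄ ^ 3 := by
    have : W.c₄ ^ 3 = 1728 * W.Δ := by linear_combination -h1
    rw [this]
    exact Dvd.dvd.mul_left hℓΔ _
  exact (Nat.prime_iff_prime_int.mp hℓ).dvd_of_dvd_pow h2

theorem jE_fixed (σ : AlgebraicClosure ℚ ≃ₐ[ℚ] AlgebraicClosure ℚ) : σ (jE W) = jE W := by
  rw [jE, map_div₀, map_pow, map_intCast, map_intCast]

theorem xc_smul' (σ : Qb ≃ₐ[ℚ] Qb) (P : ((W.map (Int.castRingHom ℚ))⁄Qb).Point) :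
    xc (σ • P) = σ (xc P) := by
  cases P with
  | zero => exact (map_zero σ).symm
  | some x y h => rfl

theorem smul_nsmul' (σ : Qb ≃ₐ[ℚ] Qb) (k : ℕ) (P : ((W.map (Int.castRingHom ℚ))⁄Qb).Point) :
    σ • (k • P) = k • (σ • P) := by
  have := Point.algEquiv_smul_zsmul σ (k : ℤ) P
  rwa [natCast_zsmul, natCast_zsmul] at this

theorem psiX_map (σ : Qb ≃ₐ[ℚ] Qb) (x : Qb) :
    σ (psiX ((W.map (Int.castRingHom ℚ))⁄Qb) x) = psiX ((W.map (Int.castRingHom ℚ))⁄Qb) (σ x) := by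
  simp only [psiX]
  rw [E_b₂, E_b₄, E_b₆]
  simp only [map_add, map_mul, map_pow, map_intCast, map_ofNat]

theorem lam_smul (σ : Qb ≃ₐ[ℚ] Qb) (Q : ((W.map (Int.castRingHom ℚ))⁄Qb).Point) :
    σ (lam _ N Q) = lam _ N (σ • Q) := by
  simp only [lam]
  rw [map_div₀, map_mul, map_pow, map_pow, map_pow, map_natCast, map_prod, E_Δ, map_intCast]
  congr 3
  refine Finset.prod_congr rfl fun k _ => ?_
  rw [psiX_map, ← xc_smul', smul_nsmul']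

/-- `Λ(E,Q)` is Galois-invariant if the line `⟨Q⟩` is Galois-stable. -/
theorem lam_fixed_of_stable (hN : N.Prime)
    (Q : ((W.map (Int.castRingHom ℚ))⁄(AlgebraicClosure ℚ)).Point) (hQ : addOrderOf Q = N)
    (hQst : ∀ σ : AlgebraicClosure ℚ ≃ₐ[ℚ] AlgebraicClosure ℚ, ∃ a : ℕ, σ • Q = a • Q)
    (σ : AlgebraicClosure ℚ ≃ₐ[ℚ] AlgebraicClosure ℚ) : σ (lam _ N Q) = lam _ N Q := by
  obtain ⟨a, ha⟩ := hQst σ
  rw [lam_smul, ha]
  refine lam_nsmul hN Q hQ a fun hdvd => ?_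
  have h0 : a • Q = 0 := by
    rw [← hQ] at hdvd
    exact addOrderOf_dvd_iff_nsmul_eq_zero.mp hdvd
  rw [h0] at ha
  have hQ0 : Q = 0 := by
    have h1 := congrArg (fun P => σ⁻¹ • P) ha
    simp only [inv_smul_smul] at h1
    rw [h1]
    rfl
  rw [hQ0, addOrderOf_zero] at hQ
  exact hN.one_lt.ne hQ

/-- `Λ(E,Q)` is Galois-invariant if `Q` is. -/
theorem lam_fixed (Q : ((W.map (Int.castRingHom ℚ))⁄(AlgebraicClosure ℚ)).Point)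
    (hQfix : ∀ σ : AlgebraicClosure ℚ ≃ₐ[ℚ] AlgebraicClosure ℚ, σ • Q = Q)
    (σ : AlgebraicClosure ℚ ≃ₐ[ℚ] AlgebraicClosure ℚ) : σ (lam _ N Q) = lam _ N Q := by
  rw [lam_smul, hQfix σ]

theorem residue_ne_zero_iff (A : ValuationSubring Qb) (a : A) :
    IsLocalRing.residue A a ≠ 0 ↔ A.valuation (a : Qb) = 1 := by
  rw [Ne, IsLocalRing.residue_eq_zero_iff, A.valuation_lt_one_iff, not_lt]
  exact ⟨fun h => le_antisymm (A.valuation_le_one a) h, fun h => h.ge⟩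

theorem residue_nonsingular_iff (A : ValuationSubring Qb) {x y : Qb} (hx : x ∈ A) (hy : y ∈ A)
    (heq : ((W.map (Int.castRingHom ℚ))⁄Qb).toAffine.Equation x y) :
    (W.map (Int.castRingHom (IsLocalRing.ResidueField A))).toAffine.Nonsingular
      (IsLocalRing.residue A ⟨x, hx⟩) (IsLocalRing.residue A ⟨y, hy⟩) ↔
    (A.valuation (((W.map (Int.castRingHom ℚ))⁄Qb).a₁ * y - (3 * x ^ 2 +
        2 * ((W.map (Int.castRingHom ℚ))⁄Qb).a₂ * x + ((W.map (Int.castRingHom ℚ))⁄Qb).a₄)) = 1 ∨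
      A.valuation (2 * y + ((W.map (Int.castRingHom ℚ))⁄Qb).a₁ * x +
        ((W.map (Int.castRingHom ℚ))⁄Qb).a₃) = 1) := by
  rw [Affine.equation_iff] at heq
  rw [E_a₁, E_a₂, E_a₃, E_a₄]
  change y ^ 2 + ((W.map (Int.castRingHom ℚ))⁄Qb).a₁ * x * y + ((W.map (Int.castRingHom ℚ))⁄Qb).a₃ * y
    = x ^ 3 + ((W.map (Int.castRingHom ℚ))⁄Qb).a₂ * x ^ 2 + ((W.map (Int.castRingHom ℚ))⁄Qb).a₄ * x
      + ((W.map (Int.castRingHom ℚ))⁄Qb).a₆ at heq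
  rw [E_a₁, E_a₂, E_a₃, E_a₄, E_a₆] at heq
  set xA : A := ⟨x, hx⟩ with hxA
  set yA : A := ⟨y, hy⟩ with hyA
  have eqA : yA ^ 2 + ((W.a₁ : ℤ) : A) * xA * yA + ((W.a₃ : ℤ) : A) * yA
      = xA ^ 3 + ((W.a₂ : ℤ) : A) * xA ^ 2 + ((W.a₄ : ℤ) : A) * xA + ((W.a₆ : ℤ) : A) :=
    Subtype.ext (by push_cast; exact heq)
  have eqk := congrArg (IsLocalRing.residue A) eqA
  simp only [map_add, map_mul, map_pow, map_intCast] at eqk
  have hω : (((W.a₁ : ℤ) : Qb) * y - (3 * x ^ 2 + 2 * ((W.a₂ : ℤ) : Qb) * x + ((W.a₄ : ℤ) : Qb)))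
      = ((((W.a₁ : ℤ) : A) * yA - (3 * xA ^ 2 + 2 * ((W.a₂ : ℤ) : A) * xA + ((W.a₄ : ℤ) : A)) : A)
        : Qb) := by
    push_cast; rfl
  have hη : (2 * y + ((W.a₁ : ℤ) : Qb) * x + ((W.a₃ : ℤ) : Qb))
      = ((2 * yA + ((W.a₁ : ℤ) : A) * xA + ((W.a₃ : ℤ) : A) : A) : Qb) := by
    push_cast; rfl
  rw [hω, hη, ← residue_ne_zero_iff, ← residue_ne_zero_iff, Affine.nonsingular_iff,
    Affine.equation_iff]
  simp only [map_add, map_sub, map_mul, map_pow, map_intCast, map_ofNat]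
  change (_ = _ ∧ _) ↔ _
  simp only [WeierstrassCurve.map_a₁, WeierstrassCurve.map_a₂, WeierstrassCurve.map_a₃,
    WeierstrassCurve.map_a₄, WeierstrassCurve.map_a₆, eq_intCast]
  constructor
  · rintro ⟨-, h | h⟩
    · exact Or.inl (sub_ne_zero.mpr h)
    · right
      intro h0
      apply h
      linear_combination h0
  · intro h
    refine ⟨eqk, ?_⟩
    rcases h with h | h
    · exact Or.inl (sub_ne_zero.mp h)
    · right
      intro h0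
      apply h
      linear_combination h0

theorem val_xc_nsmul (hN : N.Prime) (hN2 : N ≠ 2) (hℓ : ℓ.Prime) (hℓN : ℓ ≠ N)
    (A : ValuationSubring Qb) (hA : A.LiesOverPrime ℓ)
    (Q : ((W.map (Int.castRingHom ℚ))⁄Qb).Point) (hQ : addOrderOf Q = N) (k : ℕ)
    (hk : ¬ N ∣ k) : A.valuation (xc (k • Q)) ≤ 1 := by
  have hℓA : A.valuation ((ℓ : ℕ) : Qb) < 1 := hA
  refine torsion_x_integral A N ℓ hN hN2 hℓ hℓN.symm hℓA ?_ ?_ ?_ ?_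
    (nsmul_ne_zero_of_order hQ hk) ?_
  · change ((W.map (Int.castRingHom ℚ))⁄Qb).b₂ ∈ A
    rw [E_b₂]; exact intCast_mem A _
  · change ((W.map (Int.castRingHom ℚ))⁄Qb).b₄ ∈ A
    rw [E_b₄]; exact intCast_mem A _
  · change ((W.map (Int.castRingHom ℚ))⁄Qb).b₆ ∈ A
    rw [E_b₆]; exact intCast_mem A _
  · change ((W.map (Int.castRingHom ℚ))⁄Qb).b₈ ∈ A
    rw [E_b₈]; exact intCast_mem A _
  · rw [smul_comm, ← hQ, addOrderOf_nsmul_eq_zero, smul_zero]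

theorem exists_inZero_iff (hΔ : W.Δ ≠ 0) (hN : N.Prime) (hN2 : N ≠ 2)
    (hℓ : ℓ.Prime) (hℓN : ℓ ≠ N) (hℓΔ : (ℓ : ℤ) ∣ W.Δ) (hℓc₄ : ¬ (ℓ : ℤ) ∣ W.c₄)
    (A : ValuationSubring (AlgebraicClosure ℚ)) (hA : A.LiesOverPrime ℓ) :
    ∃ x0 c b' : AlgebraicClosure ℚ,
      ShiftData ((W.map (Int.castRingHom ℚ))⁄(AlgebraicClosure ℚ)) x0 c b' ∧
      A.valuation x0 ≤ 1 ∧ A.valuation b' = 1 ∧ A.valuation c < 1 ∧ c ≠ 0 ∧
      A.valuation ((W.map (Int.castRingHom ℚ))⁄(AlgebraicClosure ℚ)).Δ = A.valuation c ^ 2 ∧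
      ∀ Q : ((W.map (Int.castRingHom ℚ))⁄(AlgebraicClosure ℚ)).Point, addOrderOf Q = N →
        (W.InZeroComponentAt A Q ↔ A.valuation (xc Q - x0) = 1) := by
  have hℓA : A.valuation ((ℓ : ℕ) : Qb) < 1 := hA
  have ma : ∀ n : ℤ, A.valuation (n : Qb) ≤ 1 := valuation_intCast_le_one A
  have h₁ : A.valuation ((W.map (Int.castRingHom ℚ))⁄Qb).a₁ ≤ 1 := by rw [E_a₁]; exact ma _
  have h₂ : A.valuation ((W.map (Int.castRingHom ℚ))⁄Qb).a₂ ≤ 1 := by rw [E_a₂]; exact ma _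
  have h₃ : A.valuation ((W.map (Int.castRingHom ℚ))⁄Qb).a₃ ≤ 1 := by rw [E_a₃]; exact ma _
  have h₄ : A.valuation ((W.map (Int.castRingHom ℚ))⁄Qb).a₄ ≤ 1 := by rw [E_a₄]; exact ma _
  have h₆ : A.valuation ((W.map (Int.castRingHom ℚ))⁄Qb).a₆ ≤ 1 := by rw [E_a₆]; exact ma _
  have hΔ0 : ((W.map (Int.castRingHom ℚ))⁄Qb).Δ ≠ 0 := by
    rw [E_Δ]; exact_mod_cast hΔ
  have hΔv : A.valuation ((W.map (Int.castRingHom ℚ))⁄Qb).Δ < 1 := by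
    rw [E_Δ]; exact valuation_intCast_lt_one A hℓA hℓΔ
  have hc₄v : A.valuation ((W.map (Int.castRingHom ℚ))⁄Qb).c₄ = 1 := by
    rw [E_c₄]; exact valuation_intCast_eq_one A hℓ hℓA hℓc₄
  obtain ⟨x0, c, b', H, hx0, hb', hc, hc0, hΔc⟩ := exists_shiftData A.valuation
    ((W.map (Int.castRingHom ℚ))⁄Qb).toAffine h₁ h₂ h₃ h₄ h₆ hΔ0 hΔv hc₄v
  refine ⟨x0, c, b', H, hx0, hb', hc, hc0, hΔc, fun Q hQ => ?_⟩
  have hQ0 : Q ≠ 0 := by
    rintro rfl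
    rw [addOrderOf_zero] at hQ
    exact hN.one_lt.ne hQ
  have hx : A.valuation (xc Q) ≤ 1 := by
    have := val_xc_nsmul W hN hN2 hℓ hℓN A hA Q hQ 1 (fun h => hN.one_lt.ne' (Nat.dvd_one.mp h))
    rwa [one_smul] at this
  have hy : A.valuation (yc Q) ≤ 1 :=
    y_integral A ((A.valuation_le_one_iff _).1 h₁) ((A.valuation_le_one_iff _).1 h₂)
      ((A.valuation_le_one_iff _).1 h₃) ((A.valuation_le_one_iff _).1 h₄)
      ((A.valuation_le_one_iff _).1 h₆) hQ0 hx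
  have hxA : xc Q ∈ A := (A.valuation_le_one_iff _).1 hx
  have hyA : yc Q ∈ A := (A.valuation_le_one_iff _).1 hy
  have hXle : A.valuation (xc Q - x0) ≤ 1 := A.valuation.map_sub_le hx hx0
  have key := residue_nonsingular_iff W A hxA hyA (nonsingular_xc_yc hQ0).1
  constructor
  · intro hin
    rcases hin with h0 | ⟨x, y, h, rfl, hxy⟩
    · exact absurd h0 hQ0
    · rcases hxy with hxA' | ⟨hxA', hyA', hns⟩
      · exact absurd hxA hxA'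
      · by_contra hne
        have hX := lt_of_le_of_ne hXle hne
        obtain ⟨hω, hη⟩ := singular_of_node A.valuation H h₁ h₂ h₃ h₄ hx0 hb'.le hc hQ0 hx hy hX
        rcases key.mp hns with h1 | h1
        · exact hω.ne h1
        · exact hη.ne h1
  · intro hX
    right
    refine ⟨xc Q, yc Q, nonsingular_xc_yc hQ0, eq_some_xc_yc hQ0, Or.inr ⟨hxA, hyA, ?_⟩⟩
    exact key.mpr (nonsingular_of_not_node' A.valuation H h₁ h₂ h₃ h₄ hx0 hc hQ0 hx hy hX)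

/-- `Q ∉ E⁰` at `A` : `|Λ| < 1` and `|1/(jΛ)| < 1`. -/
theorem val_of_not_inZero (hΔ : W.Δ ≠ 0) (hN : N.Prime) (hN2 : N ≠ 2)
    (hℓ : ℓ.Prime) (hℓN : ℓ ≠ N) (hℓΔ : (ℓ : ℤ) ∣ W.Δ) (hℓc₄ : ¬ (ℓ : ℤ) ∣ W.c₄)
    (A : ValuationSubring (AlgebraicClosure ℚ)) (hA : A.LiesOverPrime ℓ)
    (Q : ((W.map (Int.castRingHom ℚ))⁄(AlgebraicClosure ℚ)).Point) (hQ : addOrderOf Q = N)
    (h : ¬ W.InZeroComponentAt A Q) :
    A.valuation (lam _ N Q) < 1 ∧ A.valuation (jE W * lam _ N Q)⁻¹ < 1 := by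
  have hℓA : A.valuation ((ℓ : ℕ) : Qb) < 1 := hA
  obtain ⟨x0, c, b', H, hx0, hb', hc, hc0, hΔc, hiff⟩ :=
    exists_inZero_iff W hΔ hN hN2 hℓ hℓN hℓΔ hℓc₄ A hA
  have hint := val_xc_nsmul W hN hN2 hℓ hℓN A hA Q hQ
  have hx : A.valuation (xc Q) ≤ 1 := by
    have := hint 1 (fun h => hN.one_lt.ne' (Nat.dvd_one.mp h))
    rwa [one_smul] at this
  have hX : A.valuation (xc Q - x0) < 1 :=
    lt_of_le_of_ne (A.valuation.map_sub_le hx hx0) (fun h1 => h ((hiff Q hQ).mpr h1))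
  have hvN : A.valuation ((N : ℕ) : Qb) = 1 :=
    valuation_natCast_eq_one A hℓ hℓA (fun hd => hℓN ((Nat.prime_dvd_prime_iff_eq hℓ hN).mp hd))
  obtain ⟨t, ht0, ht1, hlam, hΔt⟩ := val_lam_nonunit A.valuation H hx0 hb' hc hc0 hΔc hN hN2 hvN Q
    hQ hint hX
  have hN1 : N - 1 ≠ 0 := by have := hN.two_le; omega
  refine ⟨by rw [hlam]; exact pow_lt_one₀ zero_le ht1 hN1, ?_⟩
  rw [mul_inv, map_mul, val_jE W hℓ hℓc₄ A hA, ← E_Δ, hΔt, map_inv₀, hlam]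
  have : t ^ N = t ^ (N - 1) * t := by
    rw [← pow_succ]; congr 1; omega
  rw [this, mul_comm, ← mul_assoc, inv_mul_cancel₀ (pow_ne_zero _ ht0), one_mul]
  exact ht1

/-- `Q ∈ E⁰` at `A` : `|1/Λ| < 1`. -/
theorem val_of_inZero (hΔ : W.Δ ≠ 0) (hN : N.Prime) (hN2 : N ≠ 2)
    (hℓ : ℓ.Prime) (hℓN : ℓ ≠ N) (hℓΔ : (ℓ : ℤ) ∣ W.Δ) (hℓc₄ : ¬ (ℓ : ℤ) ∣ W.c₄)
    (A : ValuationSubring (AlgebraicClosure ℚ)) (hA : A.LiesOverPrime ℓ)
    (Q : ((W.map (Int.castRingHom ℚ))⁄(AlgebraicClosure ℚ)).Point) (hQ : addOrderOf Q = N)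
    (h : W.InZeroComponentAt A Q) :
    A.valuation (lam _ N Q)⁻¹ < 1 := by
  have hℓA : A.valuation ((ℓ : ℕ) : Qb) < 1 := hA
  obtain ⟨x0, c, b', H, hx0, hb', hc, hc0, hΔc, hiff⟩ :=
    exists_inZero_iff W hΔ hN hN2 hℓ hℓN hℓΔ hℓc₄ A hA
  have hint := val_xc_nsmul W hN hN2 hℓ hℓN A hA Q hQ
  have hX : A.valuation (xc Q - x0) = 1 := (hiff Q hQ).mp h
  have hvN : A.valuation ((N : ℕ) : Qb) = 1 :=
    valuation_natCast_eq_one A hℓ hℓA (fun hd => hℓN ((Nat.prime_dvd_prime_iff_eq hℓ hN).mp hd))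
  have h1 := val_lam_unit A.valuation H hx0 hb' hc hc0 hN hN2 hvN Q hQ hint hX
  have hN1 : N - 1 ≠ 0 := by have := hN.two_le; omega
  rw [map_inv₀, ← eq_inv_of_mul_eq_one_right h1]
  refine pow_lt_one₀ zero_le ?_ hN1
  rw [E_Δ]
  exact valuation_intCast_lt_one A hℓA hℓΔ

theorem exists_rat_of_fixed' (x : Qb) (h : ∀ σ : Qb ≃ₐ[ℚ] Qb, σ x = x) :
    ∃ q : ℚ, (q : Qb) = x := by
  have : Algebra.IsAlgebraic ℚ Qb := AlgebraicClosure.isAlgebraic ℚ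
  have : IsAlgClosure ℚ Qb := ⟨inferInstance, inferInstance⟩
  have : IsGalois ℚ Qb := inferInstance
  obtain ⟨q, hq⟩ := (InfiniteGalois.mem_range_algebraMap_iff_fixed x).mpr h
  exact ⟨q, by rw [← hq, eq_ratCast]⟩

/-- `Q ∈ E⁰` at `A ∣ ℓ` and `Q` rational : `N + 1 ≤ 2 ℓ`. -/
theorem two_mul_ge_of_inZero (hΔ : W.Δ ≠ 0) (hN : N.Prime) (hN2 : N ≠ 2)
    (hℓ : ℓ.Prime) (hℓN : ℓ ≠ N) (hℓΔ : (ℓ : ℤ) ∣ W.Δ) (hℓc₄ : ¬ (ℓ : ℤ) ∣ W.c₄)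
    (A : ValuationSubring (AlgebraicClosure ℚ)) (hA : A.LiesOverPrime ℓ)
    (Q : ((W.map (Int.castRingHom ℚ))⁄(AlgebraicClosure ℚ)).Point) (hQ : addOrderOf Q = N)
    (hQfix : ∀ σ : AlgebraicClosure ℚ ≃ₐ[ℚ] AlgebraicClosure ℚ, σ • Q = Q)
    (h : W.InZeroComponentAt A Q) : N + 1 ≤ 2 * ℓ := by
  have hℓA : A.valuation ((ℓ : ℕ) : Qb) < 1 := hA
  obtain ⟨x0, c, b', H, hx0, hb', hc, hc0, hΔc, hiff⟩ :=
    exists_inZero_iff W hΔ hN hN2 hℓ hℓN hℓΔ hℓc₄ A hA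
  have hint := val_xc_nsmul W hN hN2 hℓ hℓN A hA Q hQ
  have hX : A.valuation (xc Q - x0) = 1 := (hiff Q hQ).mp h
  have hc₄v : A.valuation ((W.c₄ : ℤ) : Qb) = 1 := valuation_intCast_eq_one A hℓ hℓA hℓc₄
  have hc₄0 : ((W.c₄ : ℤ) : Qb) ≠ 0 := by
    intro h0
    rw [h0, map_zero] at hc₄v
    exact zero_ne_one hc₄v
  -- the rational coordinates
  have hrat : ∀ k : ℕ, ∃ q : ℚ, (q : Qb) = xc (k • Q) := by
    intro k
    apply exists_rat_of_fixed'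
    intro σ
    rw [← xc_smul', smul_nsmul', hQfix σ]
  choose qf hqf using hrat
  -- the rational approximation of the node
  obtain ⟨x0', hx0'⟩ : ∃ x0' : ℚ, (x0' : Qb) * ((W.c₄ : ℤ) : Qb)
      = 18 * ((W.b₆ : ℤ) : Qb) - ((W.b₂ : ℤ) : Qb) * ((W.b₄ : ℤ) : Qb) := by
    refine ⟨(18 * (W.b₆ : ℚ) - (W.b₂ : ℚ) * (W.b₄ : ℚ)) / (W.c₄ : ℚ), ?_⟩
    push_cast
    field_simp
  have hdiff : A.valuation (x0 - (x0' : Qb)) < 1 := by
    have e1 := ShiftData.c₄_mul H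
    change ((W.map (Int.castRingHom ℚ))⁄Qb).c₄ * x0 = 18 * ((W.map (Int.castRingHom ℚ))⁄Qb).b₆
      - ((W.map (Int.castRingHom ℚ))⁄Qb).b₂ * ((W.map (Int.castRingHom ℚ))⁄Qb).b₄ + 2 * c * b' at e1
    rw [E_c₄, E_b₂, E_b₄, E_b₆] at e1
    have e2 : ((W.c₄ : ℤ) : Qb) * (x0 - (x0' : Qb)) = 2 * c * b' := by
      linear_combination e1 - hx0'
    have e3 : A.valuation (((W.c₄ : ℤ) : Qb) * (x0 - (x0' : Qb))) < 1 := by
      rw [e2, map_mul, map_mul, hb', mul_one]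
      exact mul_lt_one_of_le_of_lt₀ (by simpa using valuation_natCast_le_one A 2) hc
    rwa [map_mul, hc₄v, one_mul] at e3
  obtain ⟨m, hm⟩ := hN.odd_of_ne_two hN2
  let f : ℕ → ℚ := fun k => if k = 0 then x0' else qf k
  have hf0 : f 0 = x0' := if_pos rfl
  have hfk : ∀ k, k ≠ 0 → ((f k : ℚ) : Qb) = xc (k • Q) := fun k hk => by
    simp only [f, if_neg hk, hqf]
  have hnd : ∀ k, k ≠ 0 → k < m + 1 → ¬ N ∣ k := by
    intro k hk0 hk hd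
    have := Nat.le_of_dvd (Nat.pos_of_ne_zero hk0) hd
    omega
  have hlt : ∀ i j, i < j → j < m + 1 → A.valuation (((f i : ℚ) : Qb) - ((f j : ℚ) : Qb)) = 1 := by
    intro i j hij hj
    have hj0 : j ≠ 0 := by omega
    rcases Nat.eq_zero_or_pos i with rfl | hi
    · rw [hf0, hfk j hj0, Valuation.map_sub_swap]
      have e : xc (j • Q) - (x0' : Qb) = (xc (j • Q) - x0) + (x0 - (x0' : Qb)) := by ring
      have h1 := (unit_all A.valuation H hx0 hb' hc hN hN2 Q hQ hint hX j (hnd j hj0 hj)).1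
      rw [e, Valuation.map_add_eq_of_lt_left, h1]
      rw [h1]
      exact hdiff
    · rw [hfk i (by omega), hfk j hj0]
      exact unit_sub A.valuation H hx0 hb' hc hN hN2 Q hQ hint hX i j hi hij (by omega)
  have hne : ∀ i j, i < m + 1 → j < m + 1 → i ≠ j →
      A.valuation (((f i : ℚ) : Qb) - ((f j : ℚ) : Qb)) = 1 := by
    intro i j hi hj hij
    rcases lt_or_gt_of_ne hij with h1 | h1
    · exact hlt i j h1 hj
    · rw [Valuation.map_sub_swap]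
      exact hlt j i h1 hi
  have hinj : Set.InjOn f (Finset.range (m + 1) : Set ℕ) := by
    intro i hi j hj hij
    by_contra hne'
    have := hne i j (Finset.mem_range.mp hi) (Finset.mem_range.mp hj) hne'
    rw [hij, sub_self, map_zero] at this
    exact zero_ne_one this
  have hcard : ((Finset.range (m + 1)).image f).card = m + 1 := by
    rw [Finset.card_image_of_injOn hinj, Finset.card_range]
  have hle := card_le_of_pairwise_unit A.valuation hℓ hℓA ((Finset.range (m + 1)).image f) ?_ ?_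
  · rw [hcard] at hle
    omega
  · intro q hq
    obtain ⟨k, hk, rfl⟩ := Finset.mem_image.mp hq
    rcases Nat.eq_zero_or_pos k with rfl | hk0
    · rw [hf0]
      have e : (x0' : Qb) = x0 - (x0 - (x0' : Qb)) := by ring
      rw [e]
      exact A.valuation.map_sub_le hx0 hdiff.le
    · rw [hfk k (by omega)]
      exact hint k (hnd k (by omega) (Finset.mem_range.mp hk))
  · intro q hq q' hq' hqq'
    obtain ⟨i, hi, rfl⟩ := Finset.mem_image.mp hq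
    obtain ⟨j, hj, rfl⟩ := Finset.mem_image.mp hq'
    exact hne i j (Finset.mem_range.mp hi) (Finset.mem_range.mp hj) (fun hij => hqq' (hij ▸ rfl))

end Fermat.Agent.MAZ.Val
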